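import Mathlib

/-!
# Row S41, block DS (Deligne–Serre lifting on a lattice) — interface

Sub-architect: helper401.  Proof: `Fermat.Agent.S41.H401.ds : Spec.DSStatement`
(file `Fermat/Agent/S41/H401/DS.lean`).

Setting: `V` a complex vector space (in the application `V = Additive (Gamma0 (N*q)) →+ ℂ`),
`T i` (`i : ι`) linear endomorphisms of `V` (in the application the Hecke transfers),
`K ≤ V` a finitely generated additive subgroup stable under all `T i`, on which the `T i`
commute (in the application the image of `ker j ⊂ C_{Nq}(ℤ)`).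
`S ⊆ ι` is the set of indices at which a congruence is known.

Input: `y ∈ K`, `y ∉ p K`, with `T i y ≡ lam i • y  mod p K` for `i ∈ S`.
Output: a nonzero simultaneous eigenvector `v ∈ span_ℂ K` of ALL `T i`, with eigenvalues
`b i ∈ ℤ̄`, and a maximal ideal `𝔪' ∋ p` of `ℤ̄` with `b i ≡ lam i mod 𝔪'` for `i ∈ S`.
-/

set_option autoImplicit false

namespace Fermat.Agent.S41.Spec

/-- Block DS of row S41: Deligne–Serre lifting of a mod-`p` eigenvector of a lattice to an
eigenvector in characteristic `0` with congruent algebraic-integer eigenvalues. -/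
def DSStatement : Prop :=
  ∀ (ι V : Type) [AddCommGroup V] [Module ℂ V] (T : ι → Module.End ℂ V) (K : AddSubgroup V),
    K.FG → (∀ i, ∀ x ∈ K, T i x ∈ K) → (∀ i j, ∀ x ∈ K, T i (T j x) = T j (T i x)) →
    ∀ (p : ℕ) (S : Set ι) (lam : ι → ℤ) (y : V), y ∈ K → (∀ z ∈ K, y ≠ p • z) →
      (∀ i ∈ S, ∃ z ∈ K, T i y - lam i • y = p • z) →
      ∃ (v : V) (b : ι → integralClosure ℤ ℂ) (𝔪' : Ideal (integralClosure ℤ ℂ)),
        v ≠ 0 ∧ v ∈ Submodule.span ℂ (K : Set V) ∧ (∀ i, T i v = (b i : ℂ) • v) ∧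
        𝔪'.IsMaximal ∧ ((p : ℕ) : integralClosure ℤ ℂ) ∈ 𝔪' ∧
        ∀ i ∈ S, b i - ((lam i : ℤ) : integralClosure ℤ ℂ) ∈ 𝔪'

end Fermat.Agent.S41.Spec
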