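import Mathlib
import Fermat.Prelude.Def_ModularCurve_PeriodMap
import Fermat.Agent.S29.H642.HeckeTransfer

/-!
# Row S41, block HK — frozen interface (sub-architect helper761)

Definitions of the operators on `X_n(A) = Hom(Γ₀(n), A)` (Lean: `Additive (Gamma0 n) →+ A`) used by
the cohomological proof of level raising, and the exact statements (`Prop`s) of the Betti relations
between them.  Plan: `coord/S41.md` (origin/helper41) and `coord/S41-HK.md` (origin/helper761).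

* `IsCuspidal φ` : `φ` kills the `γ` with `(tr γ)² = 4` (Prelude `IsParabolicHom`) and the `γ` of
  finite order;
* `incl N q`, `conjDelta N q : Γ₀(N q) →* Γ₀(N)` : the inclusion and
  `γ ↦ δ γ δ⁻¹ = [[a, q b], [c / q, d]]`, `δ = diag(q, 1)`;
* `r₁ N q φ = φ ∘ incl`, `r₂ N q φ = φ ∘ conjDelta` (degeneracy maps `X_N → X_{N q}`);
* `t₁ N q ψ`, `t₂ N q ψ` : Mathlib's transfer along `incl`, `conjDelta` (`X_{N q} → X_N`);
* `T_l` is `Fermat.Agent.S29.H642.heckeTransfer` (on main).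

All definitions are hypothesis-free (junk value `0` for the transfer along a map that is not
injective with finite-index range).
-/

set_option autoImplicit false

namespace Fermat.Agent.S41.Spec

open CongruenceSubgroup Matrix.SpecialLinearGroup ModularCurve.Period
open Fermat.Agent.S29.H642
open scoped MatrixGroups

section Defs

variable {A : Type*} [AddCommGroup A]

/-- Cuspidal classes: homomorphisms `Γ₀(n) → A` vanishing on all `γ` with `(tr γ)² = 4` and on all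
`γ` of finite order. -/
def IsCuspidal {n : ℕ} (φ : Additive (Gamma0 n) →+ A) : Prop :=
  IsParabolicHom (Gamma0 n) φ ∧ ∀ γ : Gamma0 n, IsOfFinOrder γ → φ (Additive.ofMul γ) = 0

theorem gamma0_mul_le (N q : ℕ) : Gamma0 (N * q) ≤ Gamma0 N := by
  intro g hg
  rw [Gamma0_mem, ZMod.intCast_zmod_eq_zero_iff_dvd] at hg ⊢
  exact dvd_trans (by push_cast; exact dvd_mul_right _ _) hg

/-- The inclusion `Γ₀(N q) → Γ₀(N)`. -/
def incl (N q : ℕ) : Gamma0 (N * q) →* Gamma0 N := Subgroup.inclusion (gamma0_mul_le N q)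

theorem dvd_of_mem_gamma0_mul {N q : ℕ} (γ : Gamma0 (N * q)) :
    (q : ℤ) ∣ (γ : SL(2, ℤ)) 1 0 ∧ (N : ℤ) ∣ (γ : SL(2, ℤ)) 1 0 / q := by
  have h : ((N * q : ℕ) : ℤ) ∣ (γ : SL(2, ℤ)) 1 0 :=
    (ZMod.intCast_zmod_eq_zero_iff_dvd _ _).mp (Gamma0_mem.mp γ.2)
  obtain ⟨k, hk⟩ := h
  refine ⟨⟨N * k, by rw [hk]; push_cast; ring⟩, ?_⟩
  rcases eq_or_ne q 0 with rfl | hq
  · simp
  · refine ⟨k, ?_⟩
    rw [hk]
    push_cast
    rw [mul_assoc, mul_comm (q : ℤ) k, ← mul_assoc, Int.mul_ediv_cancel _ (by exact_mod_cast hq)]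

/-- The matrix `[[a, q b], [c / q, d]]`. -/
def conjDeltaMatrix (q : ℕ) (γ : SL(2, ℤ)) : Matrix (Fin 2) (Fin 2) ℤ :=
  !![γ 0 0, q * γ 0 1; γ 1 0 / q, γ 1 1]

theorem det_conjDeltaMatrix {q : ℕ} {γ : SL(2, ℤ)} (h : (q : ℤ) ∣ γ 1 0) :
    (conjDeltaMatrix q γ).det = 1 := by
  have hdet := γ.det_coe
  rw [Matrix.det_fin_two] at hdet
  rw [conjDeltaMatrix, Matrix.det_fin_two_of]
  obtain ⟨k, hk⟩ := h
  rcases eq_or_ne q 0 with rfl | hq
  · simp only [Nat.cast_zero, zero_mul] at hk ⊢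
    rw [hk] at hdet
    simpa using hdet
  · have hq' : (q : ℤ) ≠ 0 := by exact_mod_cast hq
    rw [hk, Int.mul_ediv_cancel_left _ hq']
    rw [hk] at hdet
    linear_combination hdet

theorem conjDeltaMatrix_one (q : ℕ) : conjDeltaMatrix q 1 = 1 := by
  ext i j
  fin_cases i <;> fin_cases j <;> simp [conjDeltaMatrix]

theorem conjDeltaMatrix_mul {q : ℕ} {γ γ' : SL(2, ℤ)} (h : (q : ℤ) ∣ γ 1 0)
    (h' : (q : ℤ) ∣ γ' 1 0) :
    conjDeltaMatrix q (γ * γ') = conjDeltaMatrix q γ * conjDeltaMatrix q γ' := by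
  obtain ⟨k, hk⟩ := h
  obtain ⟨k', hk'⟩ := h'
  have e00 : (γ * γ') 0 0 = γ 0 0 * γ' 0 0 + γ 0 1 * γ' 1 0 := by
    simp [Matrix.mul_apply, Fin.sum_univ_two]
  have e01 : (γ * γ') 0 1 = γ 0 0 * γ' 0 1 + γ 0 1 * γ' 1 1 := by
    simp [Matrix.mul_apply, Fin.sum_univ_two]
  have e10 : (γ * γ') 1 0 = γ 1 0 * γ' 0 0 + γ 1 1 * γ' 1 0 := by
    simp [Matrix.mul_apply, Fin.sum_univ_two]
  have e11 : (γ * γ') 1 1 = γ 1 0 * γ' 0 1 + γ 1 1 * γ' 1 1 := by
    simp [Matrix.mul_apply, Fin.sum_univ_two]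
  rcases eq_or_ne q 0 with rfl | hq
  · simp only [Nat.cast_zero, zero_mul] at hk hk'
    ext i j
    fin_cases i <;> fin_cases j <;>
      simp [conjDeltaMatrix, Matrix.mul_apply, Fin.sum_univ_two, e00, e11, hk, hk']
  · have hq' : (q : ℤ) ≠ 0 := by exact_mod_cast hq
    have hd : ((q : ℤ) * k * γ' 0 0 + γ 1 1 * (q * k')) / q = k * γ' 0 0 + γ 1 1 * k' := by
      rw [show (q : ℤ) * k * γ' 0 0 + γ 1 1 * (q * k') = q * (k * γ' 0 0 + γ 1 1 * k') by ring,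
        Int.mul_ediv_cancel_left _ hq']
    ext i j
    fin_cases i <;> fin_cases j <;>
      simp [conjDeltaMatrix, Matrix.mul_apply, Fin.sum_univ_two, e00, e01, e10, e11, hk, hk',
        Int.mul_ediv_cancel_left _ hq', hd] <;> ring

/-- `c_δ : Γ₀(N q) →* Γ₀(N)`, `[[a, b], [c, d]] ↦ [[a, q b], [c / q, d]]`
(conjugation by `δ = diag(q, 1)`). -/
def conjDelta (N q : ℕ) : Gamma0 (N * q) →* Gamma0 N where
  toFun γ := ⟨⟨conjDeltaMatrix q γ, det_conjDeltaMatrix (dvd_of_mem_gamma0_mul γ).1⟩,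
    mem_Gamma0_of_dvd (by simpa [conjDeltaMatrix] using (dvd_of_mem_gamma0_mul γ).2)⟩
  map_one' := by
    apply Subtype.ext
    apply Subtype.ext
    exact conjDeltaMatrix_one q
  map_mul' γ γ' := by
    apply Subtype.ext
    apply Subtype.ext
    exact conjDeltaMatrix_mul (dvd_of_mem_gamma0_mul γ).1 (dvd_of_mem_gamma0_mul γ').1

/-- Degeneracy map `r₁ : X_N → X_{N q}`, restriction to `Γ₀(N q)`. -/
def r₁ (N q : ℕ) (φ : Additive (Gamma0 N) →+ A) : Additive (Gamma0 (N * q)) →+ A :=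
  φ.comp (MonoidHom.toAdditive (incl N q))

/-- Degeneracy map `r₂ : X_N → X_{N q}`, `φ ↦ φ ∘ c_δ`. -/
def r₂ (N q : ℕ) (φ : Additive (Gamma0 N) →+ A) : Additive (Gamma0 (N * q)) →+ A :=
  φ.comp (MonoidHom.toAdditive (conjDelta N q))

/-- The transfer (corestriction) `Hom(H, A) → Hom(G, A)` along a group homomorphism `f : H →* G`
which is injective with range of finite index (Mathlib's `MonoidHom.transfer` for the subgroup
`f.range`, transported along `H ≃* f.range`); `0` otherwise. -/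
noncomputable def transferAlong {H G : Type*} [Group H] [Group G] (f : H →* G)
    (ψ : Additive H →+ A) : Additive G →+ A :=
  open Classical in
  if h : Function.Injective f ∧ f.range.FiniteIndex then
    haveI := h.2
    MonoidHom.toAdditiveLeft (MonoidHom.transfer
      ((AddMonoidHom.toMultiplicativeRight ψ).comp
        (MonoidHom.ofInjective h.1).symm.toMonoidHom))
  else 0

/-- `t₁ : X_{N q} → X_N`, the transfer along `Γ₀(N q) ≤ Γ₀(N)`. -/
noncomputable def t₁ (N q : ℕ) (ψ : Additive (Gamma0 (N * q)) →+ A) : Additive (Gamma0 N) →+ A :=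
  transferAlong (incl N q) ψ

/-- `t₂ : X_{N q} → X_N`, the transfer along `c_δ : Γ₀(N q) → Γ₀(N)`. -/
noncomputable def t₂ (N q : ℕ) (ψ : Additive (Gamma0 (N * q)) →+ A) : Additive (Gamma0 N) →+ A :=
  transferAlong (conjDelta N q) ψ

end Defs

/-! ## Statements of block HK -/

universe u

/-- (HK-0) additivity and naturality in the coefficients of `r₁, r₂, t₁, t₂`. -/
def FunctorialityStatement : Prop :=
  ∀ (N q : ℕ) (A B : Type u) [AddCommGroup A] [AddCommGroup B] (π : A →+ B),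
    (∀ φ φ' : Additive (Gamma0 N) →+ A,
      r₁ N q (φ + φ') = r₁ N q φ + r₁ N q φ' ∧ r₂ N q (φ + φ') = r₂ N q φ + r₂ N q φ') ∧
    (∀ ψ ψ' : Additive (Gamma0 (N * q)) →+ A,
      t₁ N q (ψ + ψ') = t₁ N q ψ + t₁ N q ψ' ∧ t₂ N q (ψ + ψ') = t₂ N q ψ + t₂ N q ψ') ∧
    (∀ φ : Additive (Gamma0 N) →+ A,
      r₁ N q (π.comp φ) = π.comp (r₁ N q φ) ∧ r₂ N q (π.comp φ) = π.comp (r₂ N q φ)) ∧
    (∀ ψ : Additive (Gamma0 (N * q)) →+ A,
      t₁ N q (π.comp ψ) = π.comp (t₁ N q ψ) ∧ t₂ N q (π.comp ψ) = π.comp (t₂ N q ψ))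

/-- (HK-1a) `r₁, r₂` preserve cuspidal classes. -/
def RestrictCuspStatement : Prop :=
  ∀ (N q : ℕ) (A : Type u) [AddCommGroup A] (φ : Additive (Gamma0 N) →+ A),
    IsCuspidal φ → IsCuspidal (r₁ N q φ) ∧ IsCuspidal (r₂ N q φ)

/-- (HK-1b) `t₁, t₂` preserve cuspidal classes. -/
def TransferCuspStatement : Prop :=
  ∀ (N q : ℕ) (A : Type u) [AddCommGroup A] (ψ : Additive (Gamma0 (N * q)) →+ A),
    IsCuspidal ψ → IsCuspidal (t₁ N q ψ) ∧ IsCuspidal (t₂ N q ψ)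

/-- (HK-1c) `T_l` preserves cuspidal classes. -/
def HeckeCuspStatement : Prop :=
  ∀ (N l : ℕ) [Fact l.Prime] (hl : ¬ l ∣ N) (A : Type u) [AddCommGroup A]
    (φ : Additive (Gamma0 N) →+ A), IsCuspidal φ → IsCuspidal (heckeTransfer hl φ)

/-- (HK-2a) `T_l` commutes with `r₁, r₂` (`l ∤ N q`). -/
def HeckeRestrictStatement : Prop :=
  ∀ (N q l : ℕ) [Fact l.Prime] (hl : ¬ l ∣ N) (hl' : ¬ l ∣ N * q) (A : Type u) [AddCommGroup A]
    (φ : Additive (Gamma0 N) →+ A),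
    heckeTransfer hl' (r₁ N q φ) = r₁ N q (heckeTransfer hl φ) ∧
    heckeTransfer hl' (r₂ N q φ) = r₂ N q (heckeTransfer hl φ)

/-- (HK-2b) `T_l` commutes with `t₁, t₂` (`l ∤ N q`, `N q ≠ 0`). -/
def HeckeTransferStatement : Prop :=
  ∀ (N q l : ℕ) [Fact l.Prime] (hl : ¬ l ∣ N) (hl' : ¬ l ∣ N * q), N * q ≠ 0 →
    ∀ (A : Type u) [AddCommGroup A] (ψ : Additive (Gamma0 (N * q)) →+ A),
    heckeTransfer hl (t₁ N q ψ) = t₁ N q (heckeTransfer hl' ψ) ∧
    heckeTransfer hl (t₂ N q ψ) = t₂ N q (heckeTransfer hl' ψ)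

/-- (HK-3) `t₁ r₁ = q + 1 = t₂ r₂` (`q` prime, `q ∤ N`, `N ≠ 0`). -/
def TransferRestrictStatement : Prop :=
  ∀ (N q : ℕ), N ≠ 0 → q.Prime → ¬ q ∣ N → ∀ (A : Type u) [AddCommGroup A]
    (φ : Additive (Gamma0 N) →+ A),
    t₁ N q (r₁ N q φ) = (q + 1) • φ ∧ t₂ N q (r₂ N q φ) = (q + 1) • φ

/-- (HK-4) `t₁ r₂ = T_q = t₂ r₁` (`q` prime, `q ∤ N`, `N ≠ 0`). -/
def TransferRestrictHeckeStatement : Prop :=
  ∀ (N q : ℕ) [Fact q.Prime] (hq : ¬ q ∣ N), N ≠ 0 → ∀ (A : Type u) [AddCommGroup A]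
    (φ : Additive (Gamma0 N) →+ A),
    t₁ N q (r₂ N q φ) = heckeTransfer hq φ ∧ t₂ N q (r₁ N q φ) = heckeTransfer hq φ

/-- (HK-5) the `T_l` commute. -/
def HeckeCommStatement : Prop :=
  ∀ (N l l' : ℕ) [Fact l.Prime] [Fact l'.Prime] (hl : ¬ l ∣ N) (hl' : ¬ l' ∣ N)
    (A : Type u) [AddCommGroup A] (φ : Additive (Gamma0 N) →+ A),
    heckeTransfer hl (heckeTransfer hl' φ) = heckeTransfer hl' (heckeTransfer hl φ)

/-- Block HK. -/
def HKStatement : Prop :=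
  FunctorialityStatement.{u} ∧ RestrictCuspStatement.{u} ∧ TransferCuspStatement.{u} ∧
  HeckeCuspStatement.{u} ∧ HeckeRestrictStatement.{u} ∧ HeckeTransferStatement.{u} ∧
  TransferRestrictStatement.{u} ∧ TransferRestrictHeckeStatement.{u} ∧ HeckeCommStatement.{u}

end Fermat.Agent.S41.Spec
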