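import Mathlib
import Fermat.Prelude.Def_ModularCurve_PeriodMap
import Fermat.Agent.S41.Spec.HK

/-!
# Row S41, blocks PD and LIFT — frozen interface (sub-architect helper221)

Plan and proofs on paper: `coord/S41-PD.md` (origin/helper221).  Row plan: `coord/S41.md` (origin/helper41).

v3 (19:15Z) = v1 verbatim: built on `Spec/HK.lean` (AUTHORITATIVE, row-lead note 18:53Z).  v2 (19:02Z-19:15Z, based on
the superseded `Spec/Defs.lean`/`Spec/Blocks.lean`) is withdrawn; its leaves were definitionally the same except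
`trf = transferAlong`, `cdelta = conjDelta`.  Never import `Spec/Defs.lean` or `Spec/Blocks.lean`.

## Top level (what CORE / GLUE consume)

* `PDStatement`      : for every field `F` a family of forms `B n` on `Hom(Γ₀(n), F)` which on the cuspidal
  classes (`IsCuspidal` of `Spec/HK.lean`) is bilinear, skew-symmetric, NONDEGENERATE, and satisfies
  `B (N q) (r_i x) y = B N x (t_i y)` (`i = 1, 2`; `q` prime, `q ∤ N`, `N ≠ 0`).
* `PDHeckeStatement` : the same plus `B n (T_l x) y = B n x (T_l y)` (follows from PD and HK-1, HK-4).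
* `LiftStatement`    : every cuspidal class mod `p` lifts to a cuspidal class with coefficients `ℤ`.
* `CuspFreeStatement`: the cuspidal classes with coefficients `ℤ` form a finite free `ℤ`-module.

## The Manin model (conventions)

`Γ ≤ SL(2,ℤ)` of finite index with `-1 ∈ Γ`, `X = SL(2,ℤ) ⧸ Γ` (LEFT cosets, left action), functions
`m : X → A`, `(m|g)(x) = m (g • x)`.  `S, T` are Mathlib's `ModularGroup.S, T`; `U := S * T` (`S² = U³ = -1`,
`T = S⁻¹ U`).  Cocycles are as in `Fermat.Agent.S21.H585` (on main): `f (g * h) x = f h x + f g (h • x)`.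

* `IsManinRep Γ φ m`  : `φ = ` restriction to `Γ`, evaluated at the base point, of the cocycle `f` with
  `f S = 0`, `f U = m|U - m`  (then `f T = f U`).
* `IsParData Γ m e`   : `e|T - e = m|U - m`  (`⇔ φ` parabolic).
* `maninForm Γ m e'   = ∑ₓ m x * (e' x - e' (S • x))`,   `maninPairing Γ φ ψ` := `maninForm Γ m e'` for
  representatives (`Classical.choose`).
* β-FORMULA (the invariance principle): if `ζ (γ γ') = ζ γ + ζ γ' + φ γ * ψ γ'`, `ζ = 0` on torsion, then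
  `∑_{cusps c} ζ (γ_c) = - maninPairing Γ φ ψ`, `γ_c = h⁻¹ T ^ w h` the positive primitive parabolic
  generators.  Conjugation by `δ = diag(q, 1)` preserves "positive primitive parabolic".
-/

set_option autoImplicit false

namespace Fermat.Agent.S41.Spec

open CongruenceSubgroup Matrix.SpecialLinearGroup ModularCurve.Period ModularGroup
open Fermat.Agent.S29.H642
open scoped MatrixGroups

universe u

/-! ## 1. Top-level statements -/

/-- Cuspidal classes on an arbitrary subgroup `Γ ≤ SL(2,ℤ)` (for `Γ = Γ₀(n)` this is `IsCuspidal`). -/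
def IsCuspidalOn {A : Type*} [AddCommGroup A] (Γ : Subgroup SL(2, ℤ)) (φ : Additive Γ →+ A) : Prop :=
  IsParabolicHom Γ φ ∧ ∀ γ : Γ, IsOfFinOrder γ → φ (Additive.ofMul γ) = 0

theorem isCuspidal_iff_isCuspidalOn {A : Type*} [AddCommGroup A] {n : ℕ}
    (φ : Additive (Gamma0 n) →+ A) : IsCuspidal φ ↔ IsCuspidalOn (Gamma0 n) φ := Iff.rfl

/-- `B` is a Poincaré-duality family: bilinear, skew-symmetric and nondegenerate on the cuspidal classes of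
every level `n ≠ 0`, with `r_i` left adjoint to `t_i`. -/
def IsPDFamily (F : Type u) [Field F]
    (B : ∀ n : ℕ, (Additive (Gamma0 n) →+ F) → (Additive (Gamma0 n) →+ F) → F) : Prop :=
  (∀ n : ℕ, n ≠ 0 → ∀ x x' y : Additive (Gamma0 n) →+ F, IsCuspidal x → IsCuspidal x' → IsCuspidal y →
      B n (x + x') y = B n x y + B n x' y) ∧
  (∀ n : ℕ, n ≠ 0 → ∀ (c : F) (x y : Additive (Gamma0 n) →+ F), IsCuspidal x → IsCuspidal y →
      B n (c • x) y = c * B n x y) ∧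
  (∀ n : ℕ, n ≠ 0 → ∀ x y : Additive (Gamma0 n) →+ F, IsCuspidal x → IsCuspidal y →
      B n y x = - B n x y) ∧
  (∀ n : ℕ, n ≠ 0 → ∀ x : Additive (Gamma0 n) →+ F, IsCuspidal x →
      (∀ y : Additive (Gamma0 n) →+ F, IsCuspidal y → B n x y = 0) → x = 0) ∧
  (∀ N q : ℕ, N ≠ 0 → q.Prime → ¬ q ∣ N →
    ∀ (x : Additive (Gamma0 N) →+ F) (y : Additive (Gamma0 (N * q)) →+ F),
      IsCuspidal x → IsCuspidal y →
      B (N * q) (r₁ N q x) y = B N x (t₁ N q y) ∧ B (N * q) (r₂ N q x) y = B N x (t₂ N q y))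

/-- `T_l` (`l ∤ n`) is self-adjoint for `B n` on cuspidal classes. -/
def IsHeckeSelfAdjoint (F : Type u) [Field F]
    (B : ∀ n : ℕ, (Additive (Gamma0 n) →+ F) → (Additive (Gamma0 n) →+ F) → F) : Prop :=
  ∀ (n l : ℕ) [Fact l.Prime] (hl : ¬ l ∣ n), n ≠ 0 →
    ∀ x y : Additive (Gamma0 n) →+ F, IsCuspidal x → IsCuspidal y →
      B n (heckeTransfer hl x) y = B n x (heckeTransfer hl y)

/-- **Block PD.** -/
def PDStatement : Prop :=
  ∀ (F : Type u) [Field F],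
    ∃ B : ∀ n : ℕ, (Additive (Gamma0 n) →+ F) → (Additive (Gamma0 n) →+ F) → F, IsPDFamily F B

/-- **Block PD with Hecke operators** (`= PD + HK-1a + HK-4`:
`B(T_l x, y) = B(t₁ r₂ x, y) = -B(y, t₁ r₂ x) = -B(r₁ y, r₂ x) = B(r₂ x, r₁ y) = B(x, t₂ r₁ y)`). -/
def PDHeckeStatement : Prop :=
  ∀ (F : Type u) [Field F],
    ∃ B : ∀ n : ℕ, (Additive (Gamma0 n) →+ F) → (Additive (Gamma0 n) →+ F) → F,
      IsPDFamily F B ∧ IsHeckeSelfAdjoint F B

/-- (PD-HECKE) leaf: pure bookkeeping. -/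
def PDHeckeOfPDStatement : Prop :=
  RestrictCuspStatement.{u} → TransferRestrictHeckeStatement.{u} →
    ∀ (F : Type u) [Field F]
      (B : ∀ n : ℕ, (Additive (Gamma0 n) →+ F) → (Additive (Gamma0 n) →+ F) → F),
      IsPDFamily F B → IsHeckeSelfAdjoint F B

/-- **Block LIFT** (a): cuspidal classes mod `p` lift to `ℤ`. -/
def LiftStatement : Prop :=
  ∀ (n p : ℕ), n ≠ 0 → ∀ xbar : Additive (Gamma0 n) →+ ZMod p, IsCuspidal xbar →
    ∃ x : Additive (Gamma0 n) →+ ℤ, IsCuspidal x ∧ (Int.castAddHom (ZMod p)).comp x = xbar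

/-- The submodule of cuspidal classes. -/
def cuspidalSubmodule (R : Type*) [Semiring R] (n : ℕ) (A : Type*) [AddCommGroup A] [Module R A] :
    Submodule R (Additive (Gamma0 n) →+ A) where
  carrier := {φ | IsCuspidal φ}
  zero_mem' := ⟨fun _ _ => rfl, fun _ _ => rfl⟩
  add_mem' := by
    intro φ ψ hφ hψ
    refine ⟨fun γ hγ => ?_, fun γ hγ => ?_⟩
    · show φ (Additive.ofMul γ) + ψ (Additive.ofMul γ) = 0
      rw [hφ.1 γ hγ, hψ.1 γ hγ, add_zero]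
    · show φ (Additive.ofMul γ) + ψ (Additive.ofMul γ) = 0
      rw [hφ.2 γ hγ, hψ.2 γ hγ, add_zero]
  smul_mem' := by
    intro c φ hφ
    refine ⟨fun γ hγ => ?_, fun γ hγ => ?_⟩
    · show c • φ (Additive.ofMul γ) = 0
      rw [hφ.1 γ hγ, smul_zero]
    · show c • φ (Additive.ofMul γ) = 0
      rw [hφ.2 γ hγ, smul_zero]

theorem mem_cuspidalSubmodule {R : Type*} [Semiring R] {n : ℕ} {A : Type*} [AddCommGroup A]
    [Module R A] {φ : Additive (Gamma0 n) →+ A} :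
    φ ∈ cuspidalSubmodule R n A ↔ IsCuspidal φ := Iff.rfl

/-- **Block LIFT** (b): `C_n(ℤ)` is a finite free `ℤ`-module. -/
def CuspFreeStatement : Prop :=
  ∀ n : ℕ, n ≠ 0 → Module.Finite ℤ (cuspidalSubmodule ℤ n ℤ) ∧ Module.Free ℤ (cuspidalSubmodule ℤ n ℤ)

/-! ## 2. The Manin model: definitions -/

section ManinDefs

variable (Γ : Subgroup SL(2, ℤ)) {A : Type*} [AddCommGroup A]

/-- `f` is the normalised cocycle of the Manin symbol `m`: `f S = 0`, `f (S T) = m|ST - m`. -/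
def IsManinCocycle (f : SL(2, ℤ) → SL(2, ℤ) ⧸ Γ → A) (m : SL(2, ℤ) ⧸ Γ → A) : Prop :=
  (∀ (g h : SL(2, ℤ)) (x : SL(2, ℤ) ⧸ Γ), f (g * h) x = f h x + f g (h • x)) ∧
  (∀ x : SL(2, ℤ) ⧸ Γ, f S x = 0) ∧
  ∀ x : SL(2, ℤ) ⧸ Γ, f (S * T) x = m ((S * T) • x) - m x

/-- The class `φ ∈ Hom(Γ, A)` is represented by the Manin symbol `m : X → A`. -/
def IsManinRep (φ : Additive Γ →+ A) (m : SL(2, ℤ) ⧸ Γ → A) : Prop :=
  ∃ f : SL(2, ℤ) → SL(2, ℤ) ⧸ Γ → A, IsManinCocycle Γ f m ∧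
    ∀ γ : Γ, φ (Additive.ofMul γ) = f (γ : SL(2, ℤ)) ((1 : SL(2, ℤ)) : SL(2, ℤ) ⧸ Γ)

/-- Parabolic data: `e|T - e = m|ST - m`. -/
def IsParData (m e : SL(2, ℤ) ⧸ Γ → A) : Prop :=
  ∀ x : SL(2, ℤ) ⧸ Γ, e (T • x) - e x = m ((S * T) • x) - m x

/-- `m ∈ M^S + M^{ST}`. -/
def IsInvariantSum (m : SL(2, ℤ) ⧸ Γ → A) : Prop :=
  ∃ n₁ n₂ : SL(2, ℤ) ⧸ Γ → A, (∀ x, n₁ (S • x) = n₁ x) ∧ (∀ x, n₂ ((S * T) • x) = n₂ x) ∧
    m = n₁ + n₂

variable {R : Type*} [CommRing R]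

/-- The Manin form `∑ₓ m x * (e' x - e' (S • x))`. -/
noncomputable def maninForm (m e' : SL(2, ℤ) ⧸ Γ → R) : R :=
  ∑ᶠ x : SL(2, ℤ) ⧸ Γ, m x * (e' x - e' (S • x))

theorem maninForm_eq_sum [Fintype (SL(2, ℤ) ⧸ Γ)] (m e' : SL(2, ℤ) ⧸ Γ → R) :
    maninForm Γ m e' = ∑ x : SL(2, ℤ) ⧸ Γ, m x * (e' x - e' (S • x)) :=
  finsum_eq_sum_of_fintype _

/-- The pairing on `Hom(Γ, R)` (meaningful on cuspidal classes). -/
noncomputable def maninPairing (φ ψ : Additive Γ →+ R) : R :=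
  open Classical in
  if h : ∃ m m' e' : SL(2, ℤ) ⧸ Γ → R, IsManinRep Γ φ m ∧ IsManinRep Γ ψ m' ∧ IsParData Γ m' e' then
    maninForm Γ h.choose h.choose_spec.choose_spec.choose
  else 0

/-- Heisenberg lifts of `(φ, ψ)`: `(φ, ψ, ζ) : Γ → Heis(R)` is a homomorphism, trivial on torsion. -/
def IsHeisLift (φ ψ : Additive Γ →+ R) (ζ : Γ → R) : Prop :=
  (∀ γ γ' : Γ, ζ (γ * γ') = ζ γ + ζ γ' + φ (Additive.ofMul γ) * ψ (Additive.ofMul γ')) ∧
  ∀ γ : Γ, IsOfFinOrder γ → ζ γ = 0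

/-- A system of representatives of the `T`-orbits on `X`: `X = ⨆ᵢ {T^j hᵢ Γ : j < wᵢ}` (disjoint),
`γᵢ = hᵢ⁻¹ T^{wᵢ} hᵢ ∈ Γ`. -/
def IsTOrbitSystem {ι : Type} (γ : ι → Γ) (h : ι → SL(2, ℤ)) (w : ι → ℕ) : Prop :=
  (∀ i, 0 < w i) ∧
  (∀ i, ((γ i : Γ) : SL(2, ℤ)) = (h i)⁻¹ * T ^ (w i) * h i) ∧
  ∀ x : SL(2, ℤ) ⧸ Γ, ∃! p : (Σ i, Fin (w i)),
    x = ((T ^ (p.2 : ℕ) * h p.1 : SL(2, ℤ)) : SL(2, ℤ) ⧸ Γ)

end ManinDefs

/-- Positive parabolic elements: `tr = 2`, `≠ 1`, upper right entry `≥ 0`, lower left entry `≤ 0`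
(`= h⁻¹ T^k h` with `k > 0`). -/
def IsPosParabolic (g : SL(2, ℤ)) : Prop :=
  g ≠ 1 ∧ (g : Matrix (Fin 2) (Fin 2) ℤ).trace = 2 ∧ 0 ≤ g 0 1 ∧ g 1 0 ≤ 0

/-- Primitive positive parabolic elements of `Γ`. -/
def IsPrimPosParabolic (Γ : Subgroup SL(2, ℤ)) (γ : Γ) : Prop :=
  IsPosParabolic (γ : SL(2, ℤ)) ∧
    ∀ (γ' : Γ) (k : ℕ), IsPosParabolic (γ' : SL(2, ℤ)) → γ' ^ k = γ → k = 1

/-- A system of representatives of the `Γ`-conjugacy classes of primitive positive parabolic elements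
(`↔` cusps of `Γ`). -/
def IsCuspSystem (Γ : Subgroup SL(2, ℤ)) {ι : Type} (γ : ι → Γ) : Prop :=
  (∀ i, IsPrimPosParabolic Γ (γ i)) ∧
  ∀ γ' : Γ, IsPrimPosParabolic Γ γ' → ∃! i, ∃ g : Γ, g * γ i * g⁻¹ = γ'

/-- `c_δ` with values in `SL(2,ℤ)`. -/
def conjDeltaSL (N q : ℕ) : Gamma0 (N * q) →* SL(2, ℤ) :=
  (Gamma0 N).subtype.comp (conjDelta N q)

/-- `Γ' = δ Γ₀(N q) δ⁻¹ = Γ₀(N) ∩ Γ⁰(q)`. -/
def gamma0Delta (N q : ℕ) : Subgroup SL(2, ℤ) := (conjDeltaSL N q).range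

/-- `c_δ : Γ₀(N q) → Γ'`. -/
def conjDeltaR (N q : ℕ) : Gamma0 (N * q) →* gamma0Delta N q := (conjDeltaSL N q).rangeRestrict

theorem gamma0Delta_le (N q : ℕ) : gamma0Delta N q ≤ Gamma0 N := by
  rintro _ ⟨γ, rfl⟩
  exact (conjDelta N q γ).2

/-! ## 3. Leaves -/

/-! ### LINALG (pure linear algebra on a finite set with two permutations) -/

/-- (LA-1) `((σ-1)M ∩ (υ-1)M)^⊥ ⊆ M^σ + M^υ`. -/
def ManinPerpStatement : Prop :=
  ∀ (X : Type) [Fintype X] (σ υ : Equiv.Perm X) (F : Type u) [Field F] (m : X → F),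
    (∀ s a b : X → F, (∀ x, s x = a (σ x) - a x) → (∀ x, s x = b (υ x) - b x) →
      ∑ x, m x * s x = 0) →
    ∃ n₁ n₂ : X → F, (∀ x, n₁ (σ x) = n₁ x) ∧ (∀ x, n₂ (υ x) = n₂ x) ∧ m = n₁ + n₂

/-- (LA-2) skew-symmetry of the Manin form on parabolic data; `τ = σ⁻¹ υ`, `σ² = 1`. -/
def ManinSkewStatement : Prop :=
  ∀ (X : Type) [Fintype X] (σ υ τ : Equiv.Perm X), (∀ x, σ (σ x) = x) → (∀ x, σ (τ x) = υ x) →
    ∀ (R : Type u) [CommRing R] (m e m' e' : X → R),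
      (∀ x, e (τ x) - e x = m (υ x) - m x) → (∀ x, e' (τ x) - e' x = m' (υ x) - m' x) →
      ∑ x, m' x * (e x - e (σ x)) = - ∑ x, m x * (e' x - e' (σ x))

/-- (LA-3) every `s ∈ (σ-1)M ∩ (υ-1)M` comes from parabolic data. -/
def ManinParDataOfStatement : Prop :=
  ∀ (X : Type) (σ υ τ : Equiv.Perm X), (∀ x, σ (σ x) = x) → (∀ x, σ (τ x) = υ x) →
    ∀ (A : Type u) [AddCommGroup A] (s a b : X → A),
      (∀ x, s x = a (σ x) - a x) → (∀ x, s x = b (υ x) - b x) →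
      ∃ m e : X → A, (∀ x, e (τ x) - e x = m (υ x) - m x) ∧ ∀ x, e (σ x) - e x = s x

/-- (LA-4) lifting parabolic data from `ℤ/p` to `ℤ` (transitive action). -/
def ParDataLiftStatement : Prop :=
  ∀ (Γ : Subgroup SL(2, ℤ)) [Γ.FiniteIndex] (p : ℕ) (mbar ebar : SL(2, ℤ) ⧸ Γ → ZMod p),
    IsParData Γ mbar ebar →
    ∃ m e : SL(2, ℤ) ⧸ Γ → ℤ, IsParData Γ m e ∧ (∀ x, ((m x : ℤ) : ZMod p) = mbar x) ∧
      ∀ x, ((e x : ℤ) : ZMod p) = ebar x

/-! ### TORS (finite order elements of `SL(2,ℤ)`) -/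

/-- (TORS) every element of finite order is conjugate to `± 1, ± S, ± ST, ± (ST)²`. -/
def TorsionClassStatement : Prop :=
  ∀ g : SL(2, ℤ), IsOfFinOrder g →
    ∃ h : SL(2, ℤ), h * g * h⁻¹ = 1 ∨ h * g * h⁻¹ = -1 ∨ h * g * h⁻¹ = S ∨ h * g * h⁻¹ = -S ∨
      h * g * h⁻¹ = S * T ∨ h * g * h⁻¹ = -(S * T) ∨ h * g * h⁻¹ = (S * T) ^ 2 ∨
      h * g * h⁻¹ = -(S * T) ^ 2

/-! ### DICT (dictionary `Hom(Γ, A)` ↔ Manin symbols) -/

/-- (D1) every torsion-trivial class has a Manin representative (Shapiro + normalisation). -/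
def ManinRepExistsStatement : Prop :=
  ∀ (Γ : Subgroup SL(2, ℤ)) [Γ.FiniteIndex], (-1 : SL(2, ℤ)) ∈ Γ →
    ∀ (A : Type u) [AddCommGroup A] (φ : Additive Γ →+ A),
      (∀ γ : Γ, IsOfFinOrder γ → φ (Additive.ofMul γ) = 0) → ∃ m, IsManinRep Γ φ m

/-- (D2) a Manin symbol representing `0` lies in `M^S + M^{ST}`. -/
def ManinRepZeroStatement : Prop :=
  ∀ (Γ : Subgroup SL(2, ℤ)) [Γ.FiniteIndex], (-1 : SL(2, ℤ)) ∈ Γ →
    ∀ (A : Type u) [AddCommGroup A] (m : SL(2, ℤ) ⧸ Γ → A),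
      IsManinRep Γ (0 : Additive Γ →+ A) m → IsInvariantSum Γ m

/-- (D2') a Manin symbol in `M^S + M^{ST}` represents only `0`. -/
def ManinRepInvariantStatement : Prop :=
  ∀ (Γ : Subgroup SL(2, ℤ)) [Γ.FiniteIndex], (-1 : SL(2, ℤ)) ∈ Γ →
    ∀ (A : Type u) [AddCommGroup A] (φ : Additive Γ →+ A) (m : SL(2, ℤ) ⧸ Γ → A),
      IsManinRep Γ φ m → IsInvariantSum Γ m → φ = 0

/-- (D2'') linearity and naturality of `IsManinRep`. -/
def ManinRepLinearStatement : Prop :=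
  ∀ (Γ : Subgroup SL(2, ℤ)) (A B : Type u) [AddCommGroup A] [AddCommGroup B] (π : A →+ B)
    (φ φ' : Additive Γ →+ A) (m m' : SL(2, ℤ) ⧸ Γ → A),
      IsManinRep Γ φ m → IsManinRep Γ φ' m' →
      IsManinRep Γ (φ + φ') (m + m') ∧ IsManinRep Γ (φ - φ') (m - m') ∧
      IsManinRep Γ (π.comp φ) (fun x => π (m x))

/-- (D3) every Manin symbol represents a class (uses the presentation of `SL(2,ℤ)`:
`Fermat.Agent.S21.H585.exists_cocycle`, on main). -/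
def ManinRepRealizeStatement : Prop :=
  ∀ (Γ : Subgroup SL(2, ℤ)) [Γ.FiniteIndex], (-1 : SL(2, ℤ)) ∈ Γ →
    ∀ (A : Type u) [AddCommGroup A] (m : SL(2, ℤ) ⧸ Γ → A), ∃ φ : Additive Γ →+ A, IsManinRep Γ φ m

/-- (D3') represented classes are torsion-trivial (uses TORS). -/
def ManinRepTorsionStatement : Prop :=
  ∀ (Γ : Subgroup SL(2, ℤ)) [Γ.FiniteIndex], (-1 : SL(2, ℤ)) ∈ Γ →
    ∀ (A : Type u) [AddCommGroup A] (φ : Additive Γ →+ A) (m : SL(2, ℤ) ⧸ Γ → A),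
      IsManinRep Γ φ m → ∀ γ : Γ, IsOfFinOrder γ → φ (Additive.ofMul γ) = 0

/-- (D4) `φ` is parabolic iff `m` admits parabolic data. -/
def ManinRepParabolicStatement : Prop :=
  ∀ (Γ : Subgroup SL(2, ℤ)) [Γ.FiniteIndex], (-1 : SL(2, ℤ)) ∈ Γ →
    ∀ (A : Type u) [AddCommGroup A] (φ : Additive Γ →+ A) (m : SL(2, ℤ) ⧸ Γ → A),
      IsManinRep Γ φ m → (IsParabolicHom Γ φ ↔ ∃ e, IsParData Γ m e)

/-! ### TRANSFER (restriction / corestriction in the Manin model) -/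

/-- (TR-1) restriction is pull-back of Manin symbols. -/
def ManinRepResStatement : Prop :=
  ∀ (Γ' Γ : Subgroup SL(2, ℤ)) (hle : Γ' ≤ Γ) (A : Type u) [AddCommGroup A]
    (φ : Additive Γ →+ A) (m : SL(2, ℤ) ⧸ Γ → A), IsManinRep Γ φ m →
    IsManinRep Γ' (φ.comp (MonoidHom.toAdditive (Subgroup.inclusion hle)))
      (fun x' => m (Subgroup.quotientMapOfLE hle x'))

/-- (TR-2) the transfer is push-forward of Manin symbols. -/
def ManinRepCoresStatement : Prop :=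
  ∀ (Γ' Γ : Subgroup SL(2, ℤ)) [Γ'.FiniteIndex] (hle : Γ' ≤ Γ) (A : Type u) [AddCommGroup A]
    (ψ : Additive Γ' →+ A) (m' : SL(2, ℤ) ⧸ Γ' → A), IsManinRep Γ' ψ m' →
    IsManinRep Γ (transferAlong (Subgroup.inclusion hle) ψ)
      (fun x => ∑ᶠ (x' : SL(2, ℤ) ⧸ Γ') (_ : Subgroup.quotientMapOfLE hle x' = x), m' x')

/-- (TR-3) push-forward of parabolic data, and the adjunction for the Manin form. -/
def ManinFormAdjointStatement : Prop :=
  ∀ (Γ' Γ : Subgroup SL(2, ℤ)) [Γ'.FiniteIndex] (hle : Γ' ≤ Γ) (R : Type u) [CommRing R]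
    (m : SL(2, ℤ) ⧸ Γ → R) (m' e' : SL(2, ℤ) ⧸ Γ' → R), IsParData Γ' m' e' →
    IsParData Γ
      (fun x => ∑ᶠ (x' : SL(2, ℤ) ⧸ Γ') (_ : Subgroup.quotientMapOfLE hle x' = x), m' x')
      (fun x => ∑ᶠ (x' : SL(2, ℤ) ⧸ Γ') (_ : Subgroup.quotientMapOfLE hle x' = x), e' x') ∧
    maninForm Γ' (fun x' => m (Subgroup.quotientMapOfLE hle x')) e' =
      maninForm Γ m
        (fun x => ∑ᶠ (x' : SL(2, ℤ) ⧸ Γ') (_ : Subgroup.quotientMapOfLE hle x' = x), e' x')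

/-- (TR-4) transfer along `f' ∘ e`, `e` an isomorphism. -/
def TransferAlongEquivStatement : Prop :=
  ∀ (H H' G : Type) [Group H] [Group H'] [Group G] (e : H ≃* H') (f' : H' →* G)
    (A : Type u) [AddCommGroup A] (ψ : Additive H →+ A),
    transferAlong (f'.comp e.toMonoidHom) ψ =
      transferAlong f' (ψ.comp (MonoidHom.toAdditive e.symm.toMonoidHom))

/-! ### HEIS (Heisenberg lifts and the β-formula) -/

/-- (HEIS) existence of a Heisenberg lift for which the β-formula holds on every `T`-orbit system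
(uses `exists_hom_of_sq_cube` with values in `Perm (X × Heis R)`, and TORS). -/
def HeisLiftStatement : Prop :=
  ∀ (Γ : Subgroup SL(2, ℤ)) [Γ.FiniteIndex], (-1 : SL(2, ℤ)) ∈ Γ →
    ∀ (R : Type u) [CommRing R] (φ ψ : Additive Γ →+ R) (m m' e e' : SL(2, ℤ) ⧸ Γ → R),
      IsManinRep Γ φ m → IsManinRep Γ ψ m' → IsParData Γ m e → IsParData Γ m' e' →
      ∃ ζ : Γ → R, IsHeisLift Γ φ ψ ζ ∧
        ∀ (ι : Type) [Fintype ι] (γ : ι → Γ) (h : ι → SL(2, ℤ)) (w : ι → ℕ),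
          IsTOrbitSystem Γ γ h w → ∑ i, ζ (γ i) = - maninForm Γ m e'

/-- (HEIS-U) a torsion-trivial homomorphism sums to `0` over a `T`-orbit system. -/
def CuspSumZeroStatement : Prop :=
  ∀ (Γ : Subgroup SL(2, ℤ)) [Γ.FiniteIndex], (-1 : SL(2, ℤ)) ∈ Γ →
    ∀ (A : Type u) [AddCommGroup A] (χ : Additive Γ →+ A),
      (∀ γ : Γ, IsOfFinOrder γ → χ (Additive.ofMul γ) = 0) →
      ∀ (ι : Type) [Fintype ι] (γ : ι → Γ) (h : ι → SL(2, ℤ)) (w : ι → ℕ),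
        IsTOrbitSystem Γ γ h w → ∑ i, χ (Additive.ofMul (γ i)) = 0

/-! ### CUSP (cusps = conjugacy classes of primitive positive parabolic elements) -/

/-- (CUSP-1) `T`-orbit systems exist. -/
def TOrbitSystemExistsStatement : Prop :=
  ∀ (Γ : Subgroup SL(2, ℤ)) [Γ.FiniteIndex],
    ∃ (ι : Type) (_ : Fintype ι) (γ : ι → Γ) (h : ι → SL(2, ℤ)) (w : ι → ℕ), IsTOrbitSystem Γ γ h w

/-- (CUSP-2) a `T`-orbit system is a cusp system. -/
def TOrbitCuspStatement : Prop :=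
  ∀ (Γ : Subgroup SL(2, ℤ)) [Γ.FiniteIndex], (-1 : SL(2, ℤ)) ∈ Γ →
    ∀ (ι : Type) (γ : ι → Γ) (h : ι → SL(2, ℤ)) (w : ι → ℕ),
      IsTOrbitSystem Γ γ h w → IsCuspSystem Γ γ

/-- (CUSP-3) sums of class functions over two cusp systems agree. -/
def CuspSumIndepStatement : Prop :=
  ∀ (Γ : Subgroup SL(2, ℤ)) (A : Type u) [AddCommGroup A] (ζ : Γ → A),
    (∀ g γ : Γ, IsPosParabolic (γ : SL(2, ℤ)) → ζ (g * γ * g⁻¹) = ζ γ) →
    ∀ (ι ι' : Type) [Fintype ι] [Fintype ι'] (γ : ι → Γ) (γ' : ι' → Γ),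
      IsCuspSystem Γ γ → IsCuspSystem Γ γ' → ∑ i, ζ (γ i) = ∑ i, ζ (γ' i)

/-- (CUSP-4) `c_δ` maps cusp systems of `Γ₀(N q)` to cusp systems of `Γ' = δ Γ₀(N q) δ⁻¹`. -/
def CuspSystemConjDeltaStatement : Prop :=
  ∀ (N q : ℕ), N ≠ 0 → q ≠ 0 → ∀ (ι : Type) (γ : ι → Gamma0 (N * q)),
    IsCuspSystem (Gamma0 (N * q)) γ → IsCuspSystem (gamma0Delta N q) (fun i => conjDeltaR N q (γ i))

/-! ## 4. Assembly statements (general `Γ`) -/

/-- (A1) the pairing is computed by any representatives. -/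
def ManinPairingEqStatement : Prop :=
  ∀ (Γ : Subgroup SL(2, ℤ)) [Γ.FiniteIndex], (-1 : SL(2, ℤ)) ∈ Γ →
    ∀ (R : Type u) [CommRing R] (φ ψ : Additive Γ →+ R) (m m' e' : SL(2, ℤ) ⧸ Γ → R),
      IsParabolicHom Γ φ → IsManinRep Γ φ m → IsManinRep Γ ψ m' → IsParData Γ m' e' →
      maninPairing Γ φ ψ = maninForm Γ m e'

/-- (A2) the pairing is bilinear, skew-symmetric and nondegenerate on cuspidal classes. -/
def ManinPairingPDStatement : Prop :=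
  ∀ (Γ : Subgroup SL(2, ℤ)) [Γ.FiniteIndex], (-1 : SL(2, ℤ)) ∈ Γ → ∀ (F : Type u) [Field F],
    (∀ x x' y : Additive Γ →+ F, IsCuspidalOn Γ x → IsCuspidalOn Γ x' → IsCuspidalOn Γ y →
      maninPairing Γ (x + x') y = maninPairing Γ x y + maninPairing Γ x' y) ∧
    (∀ (c : F) (x y : Additive Γ →+ F), IsCuspidalOn Γ x → IsCuspidalOn Γ y →
      maninPairing Γ (c • x) y = c * maninPairing Γ x y) ∧
    (∀ x y : Additive Γ →+ F, IsCuspidalOn Γ x → IsCuspidalOn Γ y →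
      maninPairing Γ y x = - maninPairing Γ x y) ∧
    (∀ x : Additive Γ →+ F, IsCuspidalOn Γ x →
      (∀ y : Additive Γ →+ F, IsCuspidalOn Γ y → maninPairing Γ x y = 0) → x = 0)

/-- (A3) restriction is left adjoint to the transfer. -/
def ManinPairingResCoresStatement : Prop :=
  ∀ (Γ' Γ : Subgroup SL(2, ℤ)) [Γ'.FiniteIndex] [Γ.FiniteIndex] (hle : Γ' ≤ Γ),
    (-1 : SL(2, ℤ)) ∈ Γ' → ∀ (F : Type u) [Field F]
    (x : Additive Γ →+ F) (y : Additive Γ' →+ F), IsCuspidalOn Γ x → IsCuspidalOn Γ' y →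
      maninPairing Γ' (x.comp (MonoidHom.toAdditive (Subgroup.inclusion hle))) y =
        maninPairing Γ x (transferAlong (Subgroup.inclusion hle) y)

/-- (A4) **β-formula**: for ANY Heisenberg lift and ANY cusp system. -/
def ManinPairingBetaStatement : Prop :=
  ∀ (Γ : Subgroup SL(2, ℤ)) [Γ.FiniteIndex], (-1 : SL(2, ℤ)) ∈ Γ → ∀ (F : Type u) [Field F]
    (φ ψ : Additive Γ →+ F) (ζ : Γ → F), IsCuspidalOn Γ φ → IsCuspidalOn Γ ψ → IsHeisLift Γ φ ψ ζ →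
    ∀ (ι : Type) [Fintype ι] (γ : ι → Γ), IsCuspSystem Γ γ →
      ∑ i, ζ (γ i) = - maninPairing Γ φ ψ

/-- (A5) `c_δ` is an isometry `(C(Γ'), B_Γ') → (C(Γ₀(N q)), B_{N q})`. -/
def ManinPairingConjDeltaStatement : Prop :=
  ∀ (N q : ℕ), N ≠ 0 → q.Prime → ¬ q ∣ N → ∀ (F : Type u) [Field F]
    (φ ψ : Additive (gamma0Delta N q) →+ F),
    IsCuspidalOn (gamma0Delta N q) φ → IsCuspidalOn (gamma0Delta N q) ψ →
      maninPairing (Gamma0 (N * q)) (φ.comp (MonoidHom.toAdditive (conjDeltaR N q)))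
        (ψ.comp (MonoidHom.toAdditive (conjDeltaR N q))) = maninPairing (gamma0Delta N q) φ ψ

end Fermat.Agent.S41.Spec
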