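import Mathlib
import Fermat.Prelude.Def_FLTPrelim_ModularRep
import Fermat.Agent.S41.Spec.HK

/-!
# Row S41 — blocks IH (final form) and CORE (row-lead helper41)

Built on the definitions of `Spec/HK.lean` (helper761).  (`Spec/Defs.lean` and `Spec/Blocks.lean`
are SUPERSEDED: never import them.)  Top-level blocks of the row and where their statements live:

* HK  : `Spec/HK.lean`  (9 Props)                * OCC : `Spec/Occ.lean`  `OccStatement`
* DS  : `Spec/DS.lean`  `DSStatement`            * NEW : `Spec/New.lean`  `NewStatement`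
* PD  : `Spec/PD.lean`  `PDHeckeStatement`, `LiftStatement`, `CuspFreeStatement`
* IH  : `IharaEigenStatement` (here; = AM + IH' + NE', the CSP-free route of helper744)
* CORE: `RibetCoreStatement` (here; abstract linear algebra)

`Fermat.Agent.S41.Glue` derives S41 from these.
-/

set_option autoImplicit false

open WeierstrassCurve WeierstrassCurve.Affine WeierstrassCurve.Affine.Point
open scoped CongruenceSubgroup MatrixGroups

namespace Fermat.Agent.S41.Spec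

open CongruenceSubgroup Fermat.Agent.S29.H642

/-- **IH** (Ihara's lemma for the eigensystem of `E[p]`).  A pair of cuspidal classes mod `p`
of level `N` in the kernel of `r₁ + r₂`, both eigenvectors of all `T_l` (`l ∤ N q p` good) with
eigenvalues `a_l(W)`, vanishes, provided `E[p]` is irreducible. -/
def IharaEigenStatement : Prop :=
  ∀ (E : WeierstrassCurve ℚ) [E.IsElliptic] (W : WeierstrassCurve ℤ), W.IsIntegralModelOf E →
    ∀ (p N q : ℕ), p.Prime → p ≠ 2 → N ≠ 0 → q.Prime → ¬ q ∣ N → q ≠ p →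
      GaloisRepIsIrreducible (K := AlgebraicClosure ℚ) ℚ E p →
      ∀ φ₁ φ₂ : Additive (Gamma0 N) →+ ZMod p, IsCuspidal φ₁ → IsCuspidal φ₂ →
        r₁ N q φ₁ + r₂ N q φ₂ = 0 →
        (∀ (l : ℕ) [Fact l.Prime] (hl : ¬ l ∣ N), ¬ l ∣ N * q → W.IsGoodPrimeFor l → l ≠ p →
          heckeTransfer hl φ₁ = ((W.apOfModel l : ℤ) : ZMod p) • φ₁ ∧
          heckeTransfer hl φ₂ = ((W.apOfModel l : ℤ) : ZMod p) • φ₂) →
        φ₁ = 0 ∧ φ₂ = 0

/-- **CORE** (Ribet's linear algebra).  `A`, `B` lattices with commuting operators `tA l`, `tB l`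
(`l : ι`), equivariant maps `i = i₁ + i₂ : A² → B`, `j = (j₁, j₂) : B → A²` with
`j ∘ i = [[c, T], [T, c]]`, nondegenerate forms mod `p` for which the operators are self-adjoint
and `j` is adjoint to `i`.  If no nonzero eigenvector mod `p` (eigenvalues `a l`) lies in the
kernel of `i` mod `p` and if some eigenvector `x` mod `p` has `T x = μ x` with `μ² = c²` mod `p`,
then `ker j` contains an eigenvector mod `p` with the eigenvalues `a l`. -/
def RibetCoreStatement : Prop :=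
  ∀ (p : ℕ) [Fact p.Prime] (ι : Type) (A B : Type) [AddCommGroup A] [AddCommGroup B]
    [Module.Finite ℤ A] [Module.Free ℤ A] [Module.Finite ℤ B] [Module.Free ℤ B]
    (tA : ι → A →ₗ[ℤ] A) (tB : ι → B →ₗ[ℤ] B) (T : A →ₗ[ℤ] A)
    (i₁ i₂ : A →ₗ[ℤ] B) (j₁ j₂ : B →ₗ[ℤ] A) (c μ : ℤ) (a : ι → ℤ)
    (βA : A → A → ZMod p) (βB : B → B → ZMod p),
    -- commutation
    (∀ l l' x, tA l (tA l' x) = tA l' (tA l x)) → (∀ l l' y, tB l (tB l' y) = tB l' (tB l y)) →
    (∀ l x, tB l (i₁ x) = i₁ (tA l x)) → (∀ l x, tB l (i₂ x) = i₂ (tA l x)) →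
    (∀ l y, tA l (j₁ y) = j₁ (tB l y)) → (∀ l y, tA l (j₂ y) = j₂ (tB l y)) →
    -- `j ∘ i = [[c, T], [T, c]]`
    (∀ x, j₁ (i₁ x) = c • x) → (∀ x, j₂ (i₂ x) = c • x) →
    (∀ x, j₁ (i₂ x) = T x) → (∀ x, j₂ (i₁ x) = T x) →
    -- duality mod `p`
    (∀ x x' y, βA (x + x') y = βA x y + βA x' y) → (∀ x y y', βA x (y + y') = βA x y + βA x y') →
    (∀ x x' y, βB (x + x') y = βB x y + βB x' y) → (∀ x y y', βB x (y + y') = βB x y + βB x y') →
    (∀ x, (∀ y, βA x y = 0) → ∃ z, x = (p : ℤ) • z) →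
    (∀ x, (∀ y, βB x y = 0) → ∃ z, x = (p : ℤ) • z) →
    (∀ l x y, βA (tA l x) y = βA x (tA l y)) → (∀ l x y, βB (tB l x) y = βB x (tB l y)) →
    (∀ x y, βB (i₁ x) y = βA x (j₁ y)) → (∀ x y, βB (i₂ x) y = βA x (j₂ y)) →
    -- Ihara: no eigenvector mod `p` in the kernel of `i` mod `p`
    (∀ x₁ x₂ : A, (∃ z, i₁ x₁ + i₂ x₂ = (p : ℤ) • z) →
      (∀ l, ∃ z, tA l x₁ - a l • x₁ = (p : ℤ) • z) →
      (∀ l, ∃ z, tA l x₂ - a l • x₂ = (p : ℤ) • z) →
      (∃ z, x₁ = (p : ℤ) • z) ∧ (∃ z, x₂ = (p : ℤ) • z)) →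
    -- the level raising congruence
    (∃ x : A, (¬ ∃ z, x = (p : ℤ) • z) ∧ (∃ z, T x - μ • x = (p : ℤ) • z) ∧
      ∀ l, ∃ z, tA l x - a l • x = (p : ℤ) • z) →
    (p : ℤ) ∣ μ ^ 2 - c ^ 2 →
    ∃ y : B, j₁ y = 0 ∧ j₂ y = 0 ∧ (¬ ∃ z, y = (p : ℤ) • z) ∧
      ∀ l, ∃ z, tB l y - a l • y = (p : ℤ) • z

end Fermat.Agent.S41.Spec
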