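import Mathlib
import Fermat.Prelude.Def_FLTPrelim_Modularity
import Fermat.Prelude.Def_ModularCurve_PeriodMap
import Fermat.Agent.S29.H642.HeckeTransfer
import Fermat.Agent.S41.Spec.HK

/-!
# Row S41, block OCC (sub-architect helper341): frozen statement

`OccStatement`: the mod-`p` eigensystem of the level-`N` eigenform `f` of S41 occurs in the cuspidal
classes `C_N(𝔽_p) ⊆ Hom(Γ₀(N), 𝔽_p)`:  there is `x ≠ 0`, cuspidal (`Spec.IsCuspidal` of `Spec/HK.lean`: vanishing on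
the elements of trace `±2` and on the elements of finite order), with
* `T_ℓ x = a_ℓ(W) x` for every prime `ℓ ∤ N`, `ℓ ≠ p`, at which `W` is good (this contains `Σ`), and
* `T_{q'} x = μ x` with `μ² = (q'+1)²` in `𝔽_p` (i.e. `μ = ±(q'+1)`).
`T_ℓ` is the Hecke transfer `Fermat.Agent.S29.H642.heckeTransfer` (on main).

Only `f`, `𝔪`, `hcong`, `hLR` of S41 are used (no `E`, no irreducibility).
-/

set_option autoImplicit false

namespace Fermat.Agent.S41.Spec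

open CongruenceSubgroup
open scoped MatrixGroups

/-- **Block OCC.** -/
def OccStatement : Prop :=
  ∀ (W : WeierstrassCurve ℤ) (p N q' : ℕ) [NeZero N] (_hp : p.Prime) (hq' : q'.Prime)
    (hq'N : ¬ q' ∣ N)
    (f : CuspForm (Gamma0 N) 2) (𝔪 : Ideal (integralClosure ℤ ℂ))
    (_hf : f.IsNormalizedEigenform) (_hmax : 𝔪.IsMaximal) (_hpm : (p : integralClosure ℤ ℂ) ∈ 𝔪)
    (_hcong : ∀ ℓ : ℕ, ℓ.Prime → W.IsGoodPrimeFor ℓ → ¬ ℓ ∣ N → ℓ ≠ p →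
      ∃ a : integralClosure ℤ ℂ, (a : ℂ) = ModularFormClass.qCoeff f ℓ ∧
        a - ((W.apOfModel ℓ : ℤ) : integralClosure ℤ ℂ) ∈ 𝔪)
    (_hLR : ∃ a : integralClosure ℤ ℂ, (a : ℂ) = ModularFormClass.qCoeff f q' ∧
      a ^ 2 - ((q' : integralClosure ℤ ℂ) + 1) ^ 2 ∈ 𝔪),
    ∃ (x : Additive (Gamma0 N) →+ ZMod p) (μ : ZMod p),
      x ≠ 0 ∧ IsCuspidal x ∧
      (∀ (ℓ : ℕ) [Fact ℓ.Prime] (hℓN : ¬ ℓ ∣ N), W.IsGoodPrimeFor ℓ → ℓ ≠ p →
        Fermat.Agent.S29.H642.heckeTransfer hℓN x = ((W.apOfModel ℓ : ℤ) : ZMod p) • x) ∧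
      μ ^ 2 = ((q' : ZMod p) + 1) ^ 2 ∧
      (haveI : Fact q'.Prime := ⟨hq'⟩; Fermat.Agent.S29.H642.heckeTransfer hq'N x = μ • x)

end Fermat.Agent.S41.Spec
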