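import Mathlib
import Fermat.Prelude.Def_ModularCurve_PeriodHomPair
import Fermat.Prelude.Def_ModularForm_HeckeOperatorForms
import Fermat.Prelude.Def_FreyPackage_LevelRaising
import Fermat.Agent.S41.Spec.HK

/-!
# Row S41, block NEW — frozen interface (sub-architect helper881)

Plan: `coord/S41.md` (origin/helper41), details `coord/S41-NEW.md` (origin/helper881).

**Block NEW.**  A nonzero parabolic class `φ ∈ Hom(Γ₀(N q), ℂ)` which is killed by the two
transfers `t₁, t₂` to level `N` and is an eigenvector of the `T_l`, `l ∈ P` (`l ∤ N q`), with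
eigenvalues `b l`, produces a normalized eigenform `g` of level `N q` with `a_l(g) = b l`
(`l ∈ P`) and `a_q(g)² = 1` (Prelude `IsNewAt q`).

Route (no newform theory, no Petersson product):
* S21 (on main): `φ = (1 + ι) P(f₁) + (1 - ι) P(f₂)`, `(f₁, f₂) ≠ 0` cusp forms of level `N q`;
* `NewInvolutionStatement`, `NewInvolutionHeckeStatement`: `ι` commutes with `t₁, t₂, T_l`;
* `periodMap_heckeTLin` (on main, S29/H642): `P(T_l f) = T_l P(f)`;
* `NewPeriodTraceStatement`: `t₁ P(f) = P(tr f)`, `t₂ P(f) = P(tr' f)` with cusp forms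
  `tr f = f + U_q W`, `tr' f = W + U_q f` of level `N` (`W = f ∣ A`, `A` Atkin–Lehner at `q`);
  the generic leaf is `NewTransferRepsStatement` (Mathlib's transfer in right coset
  representatives);
* hence `T_l f_i = b l • f_i`, `tr f_i = tr' f_i = 0`, so `U_q (U_q f_i) = f_i`;
* `NewEigenformOfUsqStatement`: a common eigenvector of the full (commutative) Hecke family in the
  stable subspace `{T_l = b l (l ∈ P), U_q² = 1}` is, once normalized, the wanted `g`.
-/

set_option autoImplicit false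

namespace Fermat.Agent.S41.Spec

open CongruenceSubgroup ModularCurve ModularCurve.Period ModularFormClass
open Fermat.Agent.S29.H642
open scoped MatrixGroups

/-- **Block NEW** (main statement). -/
def NewStatement : Prop :=
  ∀ (N q : ℕ), N ≠ 0 → q.Prime → ¬ q ∣ N →
    ∀ (P : ℕ → Prop) (b : ℕ → ℂ) (φ : Additive (Gamma0 (N * q)) →+ ℂ),
      φ ∈ parabolicHoms ℂ (Gamma0 (N * q)) ℂ → φ ≠ 0 →
      (∀ (l : ℕ) [Fact l.Prime] (hl : ¬ l ∣ N * q), P l → heckeTransfer hl φ = b l • φ) →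
      t₁ N q φ = 0 → t₂ N q φ = 0 →
      ∃ g : CuspForm (Gamma0 (N * q)) 2, g.IsNormalizedEigenform ∧
        (∀ l : ℕ, l.Prime → ¬ l ∣ N * q → P l → qCoeff g l = b l) ∧ g.IsNewAt q

/-- (NEW-1) forms side, linear algebra: a nonzero cusp form `f` of level `M`, `q ∣ M`, with
`T_l f = b l • f` (`l ∈ P`, `l ∤ M`) and `U_q (U_q f) = f` gives a normalized eigenform with
`a_l = b l` (`l ∈ P`) and `a_q ^ 2 = 1`. -/
def NewEigenformOfUsqStatement : Prop :=
  ∀ (M q : ℕ) [NeZero M], q.Prime → q ∣ M →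
    ∀ (P : ℕ → Prop) (b : ℕ → ℂ) (f : CuspForm (Gamma0 M) 2), f ≠ 0 →
      (∀ l : ℕ, l.Prime → ¬ l ∣ M → P l → ModularForm.heckeT 2 l ⇑f = b l • ⇑f) →
      ModularForm.heckeU 2 q (ModularForm.heckeU 2 q ⇑f) = ⇑f →
      ∃ g : CuspForm (Gamma0 M) 2, g.IsNormalizedEigenform ∧
        (∀ l : ℕ, l.Prime → ¬ l ∣ M → P l → qCoeff g l = b l) ∧ g.IsNewAt q

/-- (NEW-2a) generic leaf: Mathlib's transfer (through `transferAlong`) computed in a system of
representatives `s` of the right cosets `f(H) \ G`: if `s x * g = f (k x) * s (σ x)` for all `x`,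
then `(transfer ψ)(g) = ∑ x, ψ (k x)`. -/
def NewTransferRepsStatement : Prop :=
  ∀ (H G : Type) [Group H] [Group G] (A : Type) [AddCommGroup A] (f : H →* G),
    Function.Injective f →
    ∀ (ι : Type) [Fintype ι] (s : ι → G),
      (∀ x y : ι, s x * (s y)⁻¹ ∈ f.range → x = y) →
      (∀ g : G, ∃ x : ι, g * (s x)⁻¹ ∈ f.range) →
      ∀ (ψ : Additive H →+ A) (g : G) (σ : ι → ι) (k : ι → H),
        (∀ x : ι, s x * g = f (k x) * s (σ x)) →
        transferAlong f ψ (Additive.ofMul g) = ∑ x : ι, ψ (Additive.ofMul (k x))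

/-- (NEW-2) period compatibility of the two traces: for a cusp form `f` of level `N q` there are
a function `W` (`= f ∣[2] A`, `A` an Atkin–Lehner matrix at `q`) and cusp forms `g₁ = tr f`,
`g₂ = tr' f` of level `N` with `g₁ = f + U_q W`, `g₂ = W + U_q f` and
`P(g₁) = t₁ P(f)`, `P(g₂) = t₂ P(f)`. -/
def NewPeriodTraceStatement : Prop :=
  ∀ (N q : ℕ), N ≠ 0 → q.Prime → ¬ q ∣ N → ∀ f : CuspForm (Gamma0 (N * q)) 2,
    ∃ (W : UpperHalfPlane → ℂ) (g₁ g₂ : CuspForm (Gamma0 N) 2),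
      (⇑g₁ : UpperHalfPlane → ℂ) = ⇑f + ModularForm.heckeU 2 q W ∧
      (⇑g₂ : UpperHalfPlane → ℂ) = W + ModularForm.heckeU 2 q ⇑f ∧
      periodMap N g₁ = t₁ N q (periodMap (N * q) f) ∧
      periodMap N g₂ = t₂ N q (periodMap (N * q) f)

/-- (NEW-3a) the involution `ι = charInvolution` (conjugation by `diag(1, -1)`) commutes with the
two transfers. -/
def NewInvolutionStatement : Prop :=
  ∀ (N q : ℕ), N ≠ 0 → q.Prime → ¬ q ∣ N → ∀ ψ : Additive (Gamma0 (N * q)) →+ ℂ,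
    t₁ N q (charInvolution (N * q) ℂ ℂ ψ) = charInvolution N ℂ ℂ (t₁ N q ψ) ∧
    t₂ N q (charInvolution (N * q) ℂ ℂ ψ) = charInvolution N ℂ ℂ (t₂ N q ψ)

/-- (NEW-3b) the involution `ι` commutes with the Hecke transfers `T_l`. -/
def NewInvolutionHeckeStatement : Prop :=
  ∀ (M l : ℕ) [Fact l.Prime] (hl : ¬ l ∣ M) (φ : Additive (Gamma0 M) →+ ℂ),
    heckeTransfer hl (charInvolution M ℂ ℂ φ) = charInvolution M ℂ ℂ (heckeTransfer hl φ)

/-- (NEW-3c) additivity of the two transfers over `ℂ` (instance of HK-0). -/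
def NewTransferAddStatement : Prop :=
  ∀ (N q : ℕ) (ψ ψ' : Additive (Gamma0 (N * q)) →+ ℂ),
    t₁ N q (ψ + ψ') = t₁ N q ψ + t₁ N q ψ' ∧ t₂ N q (ψ + ψ') = t₂ N q ψ + t₂ N q ψ'

end Fermat.Agent.S41.Spec
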