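import Mathlib
import Fermat.Prelude.Def_FLTPrelim_GaloisRep
import Fermat.Prelude.Def_FLTPrelim_Modularity

/-!
# Row S41, block NE' ("non-Eisenstein with Kummer condition") — frozen interface
(sub-architect helper45)

Input of the CSP-free Ihara step IH' (helper744, `coord/S41-IH-without-CSP-helper744.md` §2):

`NEKummerStatement` : if `E[p]` is irreducible (`p` odd) and `q` is a prime, then for every `m ≥ 1`
and every finite set `S` there is a prime `ℓ ∉ S` of good reduction of the integral model `W` with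
`ℓ ≡ 1 mod m`, `ℓ ≡ 1 mod p`, `p ∤ a_ℓ(W) − (ℓ + 1)` and `q ^ ((ℓ - 1) / p) ≢ 1 mod ℓ`
(i.e. `q` is not a `p`-th power modulo `ℓ`).

Proof plan (helper45, `coord/S41-NE.md` §NE'): block NE (`H45/NE.lean`) + Kummer step
(K1) commutator with complex conjugation, (K2) Frobenius on a `p`-th root of `q²`,
(K3) trace trick.  No `sorry` in this file (definitions only).
-/

set_option autoImplicit false

namespace Fermat.Agent.S41.Spec

open WeierstrassCurve WeierstrassCurve.Affine WeierstrassCurve.Affine.Point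

/-- **Block NE'.**  `E[p]` irreducible, `p` odd, `q` prime  ⇒  for all `m ≥ 1` and finite `S` there is
a good prime `ℓ ∉ S`, `ℓ ≡ 1 mod m`, `ℓ ≡ 1 mod p`, with `p ∤ a_ℓ(W) − (ℓ + 1)` and
`q ^ ((ℓ - 1) / p) ≢ 1 mod ℓ`. -/
def NEKummerStatement : Prop :=
  ∀ (E : WeierstrassCurve ℚ) [E.IsElliptic] (W : WeierstrassCurve ℤ), W.IsIntegralModelOf E →
    ∀ p : ℕ, p.Prime → p ≠ 2 →
      GaloisRepIsIrreducible (K := AlgebraicClosure ℚ) ℚ E p →
      ∀ q : ℕ, q.Prime →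
      ∀ m : ℕ, 0 < m → ∀ S : Finset ℕ,
        ∃ ℓ : ℕ, ℓ.Prime ∧ ℓ ∉ S ∧ W.IsGoodPrimeFor ℓ ∧ ℓ ≡ 1 [MOD m] ∧ ℓ ≡ 1 [MOD p] ∧
          ¬ (p : ℤ) ∣ W.apOfModel ℓ - ((ℓ : ℤ) + 1) ∧
          ¬ (q ^ ((ℓ - 1) / p) ≡ 1 [MOD ℓ])

end Fermat.Agent.S41.Spec
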