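import Mathlib
import Fermat.Agent.S29.H642.HeckeTransfer

/-!
# S41 (level raising) — shared definitions (row-lead helper41)

Everything lives on `X_n(A) := Additive (Gamma0 n) →+ A`.

* `IsCusp φ`        : `φ` kills every `γ` with `(tr γ)² = 4` and every `γ` of finite order
                      (for torsion-free `A` the second condition is automatic).
* `cuspHoms n A`    : the subgroup `C_n(A)` of cuspidal classes.
* `inclHom N q`     : the inclusion `Γ₀(Nq) → Γ₀(N)`.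
* `cdelta N q`      : `Γ₀(Nq) → Γ₀(N)`, `[[a,b],[c,d]] ↦ [[a, q b],[c / q, d]]` (conjugation by `diag(q,1)`).
* `trf ι ψ`         : transfer of `ψ : Additive H →+ A` along an injective hom `ι : H →* G` with
                      finite-index range (Mathlib `MonoidHom.transfer`); `0` if `ι` is not such.
* `r₁ r₂ : X_N → X_{Nq}`, `t₁ t₂ : X_{Nq} → X_N` : the degeneracy maps and their transfers.
* `heckeOp n l`     : `T_l` on `X_n(A)` (`= S29.H642.heckeTransfer` for `l` prime, `l ∤ n`; `0` otherwise).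
-/

set_option autoImplicit false

namespace Fermat.Agent.S41.Spec

open CongruenceSubgroup Matrix.SpecialLinearGroup
open scoped MatrixGroups

section Cusp

variable {n : ℕ} {A : Type*} [AddCommGroup A]

/-- Cuspidal classes: vanish on parabolic elements (`tr² = 4`) and on elements of finite order. -/
def IsCusp (φ : Additive (Gamma0 n) →+ A) : Prop :=
  (∀ γ : Gamma0 n, ((γ : SL(2, ℤ)) : Matrix (Fin 2) (Fin 2) ℤ).trace ^ 2 = 4 →
      φ (Additive.ofMul γ) = 0) ∧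
    ∀ γ : Gamma0 n, IsOfFinOrder γ → φ (Additive.ofMul γ) = 0

variable (n A)

/-- `C_n(A)`: the group of cuspidal classes. -/
def cuspHoms : AddSubgroup (Additive (Gamma0 n) →+ A) where
  carrier := {φ | IsCusp φ}
  zero_mem' := ⟨fun _ _ => rfl, fun _ _ => rfl⟩
  add_mem' := by
    rintro φ ψ ⟨h1, h2⟩ ⟨h3, h4⟩
    refine ⟨fun γ hγ => ?_, fun γ hγ => ?_⟩
    · rw [AddMonoidHom.add_apply, h1 γ hγ, h3 γ hγ, add_zero]
    · rw [AddMonoidHom.add_apply, h2 γ hγ, h4 γ hγ, add_zero]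
  neg_mem' := by
    rintro φ ⟨h1, h2⟩
    refine ⟨fun γ hγ => ?_, fun γ hγ => ?_⟩
    · rw [AddMonoidHom.neg_apply, h1 γ hγ, neg_zero]
    · rw [AddMonoidHom.neg_apply, h2 γ hγ, neg_zero]

variable {n A}

theorem mem_cuspHoms {φ : Additive (Gamma0 n) →+ A} : φ ∈ cuspHoms n A ↔ IsCusp φ := Iff.rfl

end Cusp

section Degeneracy

variable (N q : ℕ)

theorem Gamma0_mul_le : Gamma0 (N * q) ≤ Gamma0 N := by
  intro g hg
  have h1 : ((N * q : ℕ) : ℤ) ∣ g 1 0 := Fermat.Agent.S29.H642.dvd_of_mem_Gamma0 hg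
  exact Fermat.Agent.S29.H642.mem_Gamma0_of_dvd
    (dvd_trans (by exact_mod_cast Dvd.intro q rfl) h1)

/-- The inclusion `Γ₀(Nq) → Γ₀(N)`. -/
def inclHom : Gamma0 (N * q) →* Gamma0 N := Subgroup.inclusion (Gamma0_mul_le N q)

theorem inclHom_injective : Function.Injective (inclHom N q) :=
  Subgroup.inclusion_injective _

@[simp] theorem inclHom_coe (γ : Gamma0 (N * q)) :
    ((inclHom N q γ : Gamma0 N) : SL(2, ℤ)) = (γ : SL(2, ℤ)) := rfl

/-- The matrix `[[a, q b],[c / q, d]]`. -/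
def cdeltaMat (q : ℕ) (g : SL(2, ℤ)) : Matrix (Fin 2) (Fin 2) ℤ :=
  !![g 0 0, (q : ℤ) * g 0 1; g 1 0 / (q : ℤ), g 1 1]

theorem cdeltaMat_det {q : ℕ} {g : SL(2, ℤ)} (h : (q : ℤ) ∣ g 1 0) : (cdeltaMat q g).det = 1 := by
  have hdet : g 0 0 * g 1 1 - g 0 1 * g 1 0 = 1 := by
    have := g.det_coe
    rwa [Matrix.det_fin_two] at this
  obtain ⟨k, hk⟩ := h
  rw [cdeltaMat, Matrix.det_fin_two_of]
  rcases eq_or_ne (q : ℤ) 0 with hq | hq
  · rw [hq, zero_mul] at hk
    rw [hk, mul_zero, sub_zero] at hdet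
    rw [hq, zero_mul, zero_mul, sub_zero]
    exact hdet
  · rw [hk, Int.mul_ediv_cancel_left _ hq]
    rw [hk] at hdet
    linear_combination hdet

theorem dvd_of_mem_Gamma0_mul {g : SL(2, ℤ)} (hg : g ∈ Gamma0 (N * q)) : (q : ℤ) ∣ g 1 0 :=
  dvd_trans (by exact_mod_cast Dvd.intro_left N rfl)
    (Fermat.Agent.S29.H642.dvd_of_mem_Gamma0 hg)

/-- `c_δ` as a function `Γ₀(Nq) → Γ₀(N)`. -/
def cdeltaFun (γ : Gamma0 (N * q)) : Gamma0 N :=
  ⟨⟨cdeltaMat q (γ : SL(2, ℤ)), cdeltaMat_det (dvd_of_mem_Gamma0_mul N q γ.2)⟩, by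
    apply Fermat.Agent.S29.H642.mem_Gamma0_of_dvd
    have h1 : ((N * q : ℕ) : ℤ) ∣ (γ : SL(2, ℤ)) 1 0 :=
      Fermat.Agent.S29.H642.dvd_of_mem_Gamma0 γ.2
    obtain ⟨k, hk⟩ := h1
    show (N : ℤ) ∣ cdeltaMat q (γ : SL(2, ℤ)) 1 0
    simp only [cdeltaMat, Matrix.of_apply, Matrix.cons_val_one, Matrix.cons_val_zero]
    rw [hk]
    rcases eq_or_ne (q : ℤ) 0 with hq | hq
    · rw [hq, Int.ediv_zero]; exact dvd_zero _
    · refine ⟨k, ?_⟩
      push_cast
      rw [show (N : ℤ) * (q : ℤ) * k = (q : ℤ) * ((N : ℤ) * k) by ring,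
        Int.mul_ediv_cancel_left _ hq]⟩

@[simp] theorem cdeltaFun_coe (γ : Gamma0 (N * q)) :
    (((cdeltaFun N q γ : Gamma0 N) : SL(2, ℤ)) : Matrix (Fin 2) (Fin 2) ℤ) =
      cdeltaMat q (γ : SL(2, ℤ)) := rfl

theorem cdeltaMat_mul {q : ℕ} {g h : SL(2, ℤ)} (hg : (q : ℤ) ∣ g 1 0) (hh : (q : ℤ) ∣ h 1 0) :
    cdeltaMat q (g * h) = cdeltaMat q g * cdeltaMat q h := by
  obtain ⟨k, hk⟩ := hg
  obtain ⟨k', hk'⟩ := hh
  have e00 : (g * h) 0 0 = g 0 0 * h 0 0 + g 0 1 * h 1 0 := by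
    simp [Matrix.SpecialLinearGroup.coe_mul, Matrix.mul_apply, Fin.sum_univ_two]
  have e01 : (g * h) 0 1 = g 0 0 * h 0 1 + g 0 1 * h 1 1 := by
    simp [Matrix.SpecialLinearGroup.coe_mul, Matrix.mul_apply, Fin.sum_univ_two]
  have e10 : (g * h) 1 0 = g 1 0 * h 0 0 + g 1 1 * h 1 0 := by
    simp [Matrix.SpecialLinearGroup.coe_mul, Matrix.mul_apply, Fin.sum_univ_two]
  have e11 : (g * h) 1 1 = g 1 0 * h 0 1 + g 1 1 * h 1 1 := by
    simp [Matrix.SpecialLinearGroup.coe_mul, Matrix.mul_apply, Fin.sum_univ_two]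
  rcases eq_or_ne (q : ℤ) 0 with hq | hq
  · rw [hq, zero_mul] at hk hk'
    ext i j
    fin_cases i <;> fin_cases j <;>
      simp [cdeltaMat, Matrix.mul_apply, Fin.sum_univ_two, e00, e01, e10, e11, hk, hk', hq]
  · have d1 : g 1 0 / (q : ℤ) = k := by rw [hk, Int.mul_ediv_cancel_left _ hq]
    have d2 : h 1 0 / (q : ℤ) = k' := by rw [hk', Int.mul_ediv_cancel_left _ hq]
    have d3 : (g * h) 1 0 / (q : ℤ) = k * h 0 0 + g 1 1 * k' := by
      rw [e10, hk, hk', show (q : ℤ) * k * h 0 0 + g 1 1 * ((q : ℤ) * k') =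
        (q : ℤ) * (k * h 0 0 + g 1 1 * k') by ring, Int.mul_ediv_cancel_left _ hq]
    ext i j
    fin_cases i <;> fin_cases j
    · simp only [cdeltaMat, Matrix.mul_apply, Fin.sum_univ_two, Fin.zero_eta, Fin.isValue,
        Matrix.of_apply, Matrix.cons_val', Matrix.cons_val_zero, Matrix.cons_val_fin_one,
        Matrix.cons_val_one, e00, d2]
      rw [hk']; ring
    · simp only [cdeltaMat, Matrix.mul_apply, Fin.sum_univ_two, Fin.zero_eta, Fin.isValue,
        Fin.mk_one, Matrix.of_apply, Matrix.cons_val', Matrix.cons_val_zero,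
        Matrix.cons_val_fin_one, Matrix.cons_val_one, e01]
      ring
    · simp only [cdeltaMat, Matrix.mul_apply, Fin.sum_univ_two, Fin.zero_eta, Fin.isValue,
        Fin.mk_one, Matrix.of_apply, Matrix.cons_val', Matrix.cons_val_zero,
        Matrix.cons_val_fin_one, Matrix.cons_val_one, d1, d2, d3]
    · simp only [cdeltaMat, Matrix.mul_apply, Fin.sum_univ_two, Fin.isValue,
        Fin.mk_one, Matrix.of_apply, Matrix.cons_val', Matrix.cons_val_zero,
        Matrix.cons_val_fin_one, Matrix.cons_val_one, e11, d1]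
      rw [hk]; ring

theorem cdeltaMat_one (q : ℕ) : cdeltaMat q (1 : SL(2, ℤ)) = 1 := by
  ext i j
  fin_cases i <;> fin_cases j <;> simp [cdeltaMat]

/-- `c_δ : Γ₀(Nq) →* Γ₀(N)`, conjugation by `diag(q, 1)`. -/
def cdelta : Gamma0 (N * q) →* Gamma0 N where
  toFun := cdeltaFun N q
  map_one' := by
    apply Subtype.ext; apply Subtype.ext
    rw [cdeltaFun_coe]
    exact cdeltaMat_one q
  map_mul' γ γ' := by
    apply Subtype.ext; apply Subtype.ext
    rw [cdeltaFun_coe, Subgroup.coe_mul, Subgroup.coe_mul,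
      Matrix.SpecialLinearGroup.coe_mul, cdeltaFun_coe, cdeltaFun_coe]
    exact cdeltaMat_mul (dvd_of_mem_Gamma0_mul N q γ.2) (dvd_of_mem_Gamma0_mul N q γ'.2)

@[simp] theorem cdelta_coe (γ : Gamma0 (N * q)) :
    (((cdelta N q γ : Gamma0 N) : SL(2, ℤ)) : Matrix (Fin 2) (Fin 2) ℤ) =
      cdeltaMat q (γ : SL(2, ℤ)) := rfl

end Degeneracy

section Transfer

variable {G H : Type*} [Group G] [Group H] {A : Type*} [AddCommGroup A]

/-- Transfer of `ψ : Additive H →+ A` along an injective `ι : H →* G` with finite-index range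
(`0` if `ι` is not of this kind).  For such `ι` this is Mathlib's `MonoidHom.transfer` of
`ψ ∘ ι⁻¹ : ι.range →* Multiplicative A`. -/
noncomputable def trf (ι : H →* G) (ψ : Additive H →+ A) : Additive G →+ A :=
  open scoped Classical in
  if h : Function.Injective ι ∧ ι.range.FiniteIndex then
    haveI := h.2
    MonoidHom.toAdditiveLeft
      (MonoidHom.transfer
        ((AddMonoidHom.toMultiplicativeRight ψ).comp
          (MonoidHom.ofInjective h.1).symm.toMonoidHom))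
  else 0

theorem trf_def (ι : H →* G) (h : Function.Injective ι ∧ ι.range.FiniteIndex)
    (ψ : Additive H →+ A) :
    trf ι ψ = haveI := h.2
      MonoidHom.toAdditiveLeft
        (MonoidHom.transfer
          ((AddMonoidHom.toMultiplicativeRight ψ).comp
            (MonoidHom.ofInjective h.1).symm.toMonoidHom)) := by
  unfold trf
  rw [dif_pos h]

end Transfer

section Operators

variable (N q : ℕ) {A : Type*} [AddCommGroup A]

/-- `r₁ : X_N(A) → X_{Nq}(A)`, restriction to `Γ₀(Nq)`. -/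
def r₁ (φ : Additive (Gamma0 N) →+ A) : Additive (Gamma0 (N * q)) →+ A :=
  φ.comp (MonoidHom.toAdditive (inclHom N q))

/-- `r₂ : X_N(A) → X_{Nq}(A)`, `φ ↦ φ ∘ c_δ`. -/
def r₂ (φ : Additive (Gamma0 N) →+ A) : Additive (Gamma0 (N * q)) →+ A :=
  φ.comp (MonoidHom.toAdditive (cdelta N q))

/-- `t₁ : X_{Nq}(A) → X_N(A)`, transfer along the inclusion. -/
noncomputable def t₁ (ψ : Additive (Gamma0 (N * q)) →+ A) : Additive (Gamma0 N) →+ A :=
  trf (inclHom N q) ψ

/-- `t₂ : X_{Nq}(A) → X_N(A)`, transfer along `c_δ`. -/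
noncomputable def t₂ (ψ : Additive (Gamma0 (N * q)) →+ A) : Additive (Gamma0 N) →+ A :=
  trf (cdelta N q) ψ

@[simp] theorem r₁_apply (φ : Additive (Gamma0 N) →+ A) (γ : Gamma0 (N * q)) :
    r₁ N q φ (Additive.ofMul γ) = φ (Additive.ofMul (inclHom N q γ)) := rfl

@[simp] theorem r₂_apply (φ : Additive (Gamma0 N) →+ A) (γ : Gamma0 (N * q)) :
    r₂ N q φ (Additive.ofMul γ) = φ (Additive.ofMul (cdelta N q γ)) := rfl

/-- `T_l` on `X_n(A)`: `S29.H642.heckeTransfer` when `l` is a prime not dividing `n`, else `0`. -/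
noncomputable def heckeOp (n l : ℕ) (φ : Additive (Gamma0 n) →+ A) : Additive (Gamma0 n) →+ A :=
  open scoped Classical in
  if h : l.Prime ∧ ¬ l ∣ n then
    haveI : Fact l.Prime := ⟨h.1⟩
    Fermat.Agent.S29.H642.heckeTransfer h.2 φ
  else 0

theorem heckeOp_eq {n l : ℕ} [hl : Fact l.Prime] (hln : ¬ l ∣ n) (φ : Additive (Gamma0 n) →+ A) :
    heckeOp n l φ = Fermat.Agent.S29.H642.heckeTransfer hln φ := by
  unfold heckeOp
  rw [dif_pos ⟨hl.out, hln⟩]

/-- Reduction of coefficients `X_n(ℤ) → X_n(ZMod p)`. -/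
def redMod (n p : ℕ) (φ : Additive (Gamma0 n) →+ ℤ) : Additive (Gamma0 n) →+ ZMod p :=
  (Int.castAddHom (ZMod p)).comp φ

/-- Extension of coefficients `X_n(ℤ) → X_n(ℂ)`. -/
def toComplex (n : ℕ) (φ : Additive (Gamma0 n) →+ ℤ) : Additive (Gamma0 n) →+ ℂ :=
  (Int.castAddHom ℂ).comp φ

end Operators

end Fermat.Agent.S41.Spec
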