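import Mathlib
import Fermat.Prelude.Def_FLTPrelim_ModularRep
import Fermat.Prelude.Def_FreyPackage_LevelRaising
import Fermat.Agent.S41.Spec.Defs

/-!
# S41 (level raising) — the block statements (row-lead helper41)

Each block is ONE `Prop`.  A block is proved by a theorem `… : Spec.<Name>` in
`Fermat/Agent/S41/H<seat>/…`; `Fermat.Agent.S41.Glue` derives S41 from all of them.
See `coord/S41.md` on `origin/helper41` for the mathematics.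

Notation: `X_n(A) = Additive (Gamma0 n) →+ A`, `C_n(A) = {φ | IsCusp φ}`.
-/

set_option autoImplicit false

open WeierstrassCurve WeierstrassCurve.Affine WeierstrassCurve.Affine.Point
open scoped CongruenceSubgroup MatrixGroups

namespace Fermat.Agent.S41.Spec

open CongruenceSubgroup

/-! ## HK : Betti relations -/

/-- HK1: the degeneracy maps preserve cuspidality. -/
def HKrCusp : Prop :=
  ∀ (N q : ℕ) (A : Type) [AddCommGroup A] (φ : Additive (Gamma0 N) →+ A),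
    IsCusp φ → IsCusp (r₁ N q φ) ∧ IsCusp (r₂ N q φ)

/-- HK2: the transfers preserve cuspidality. -/
def HKtCusp : Prop :=
  ∀ (N q : ℕ), 0 < N → q.Prime → ¬ q ∣ N →
    ∀ (A : Type) [AddCommGroup A] (ψ : Additive (Gamma0 (N * q)) →+ A),
      IsCusp ψ → IsCusp (t₁ N q ψ) ∧ IsCusp (t₂ N q ψ)

/-- HK3: `T_l` preserves cuspidality. -/
def HKTCusp : Prop :=
  ∀ (n l : ℕ), 0 < n → l.Prime → ¬ l ∣ n →
    ∀ (A : Type) [AddCommGroup A] (φ : Additive (Gamma0 n) →+ A),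
      IsCusp φ → IsCusp (heckeOp n l φ)

/-- HK4: `T_l` (`l ∤ Nq`) commutes with the degeneracy maps and with the transfers. -/
def HKTcomm : Prop :=
  ∀ (N q l : ℕ), 0 < N → q.Prime → ¬ q ∣ N → l.Prime → ¬ l ∣ N * q →
    ∀ (A : Type) [AddCommGroup A],
      (∀ φ : Additive (Gamma0 N) →+ A,
        heckeOp (N * q) l (r₁ N q φ) = r₁ N q (heckeOp N l φ) ∧
        heckeOp (N * q) l (r₂ N q φ) = r₂ N q (heckeOp N l φ)) ∧
      (∀ ψ : Additive (Gamma0 (N * q)) →+ A,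
        heckeOp N l (t₁ N q ψ) = t₁ N q (heckeOp (N * q) l ψ) ∧
        heckeOp N l (t₂ N q ψ) = t₂ N q (heckeOp (N * q) l ψ))

/-- HK5/6: `t₁ r₁ = q + 1 = t₂ r₂`, `t₁ r₂ = T_q = t₂ r₁`. -/
def HKtr : Prop :=
  ∀ (N q : ℕ), 0 < N → q.Prime → ¬ q ∣ N →
    ∀ (A : Type) [AddCommGroup A] (φ : Additive (Gamma0 N) →+ A),
      t₁ N q (r₁ N q φ) = (q + 1) • φ ∧ t₂ N q (r₂ N q φ) = (q + 1) • φ ∧
      t₁ N q (r₂ N q φ) = heckeOp N q φ ∧ t₂ N q (r₁ N q φ) = heckeOp N q φ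

/-- HK7: the `T_l` commute on cuspidal integral classes. -/
def HKcomm : Prop :=
  ∀ (n l l' : ℕ), 0 < n → l.Prime → ¬ l ∣ n → l'.Prime → ¬ l' ∣ n →
    ∀ φ : Additive (Gamma0 n) →+ ℤ, IsCusp φ →
      heckeOp n l (heckeOp n l' φ) = heckeOp n l' (heckeOp n l φ)

/-- HK8: transfers are additive and commute with change of coefficients
(`r₁ r₂ heckeOp` : by `rfl` / `heckeTransfer_add` / `heckeTransfer_comp`). -/
def HKtAdd : Prop :=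
  ∀ (N q : ℕ), 0 < N → q.Prime → ¬ q ∣ N →
    ∀ (A B : Type) [AddCommGroup A] [AddCommGroup B] (π : A →+ B)
      (ψ ψ' : Additive (Gamma0 (N * q)) →+ A),
      t₁ N q (ψ + ψ') = t₁ N q ψ + t₁ N q ψ' ∧ t₂ N q (ψ + ψ') = t₂ N q ψ + t₂ N q ψ' ∧
      t₁ N q (π.comp ψ) = π.comp (t₁ N q ψ) ∧ t₂ N q (π.comp ψ) = π.comp (t₂ N q ψ)

/-- FG: `X_n(ℤ)` is a finitely generated `ℤ`-module (`Γ₀(n)` is finitely generated). -/
def FGStatement : Prop :=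
  ∀ n : ℕ, 0 < n → Module.Finite ℤ (Additive (Gamma0 n) →+ ℤ)

/-! ## PD, LIFT : Poincaré duality mod `p` -/

/-- PD: a family of skew, nondegenerate biadditive forms on `C_n(𝔽_p)` for which the
degeneracy maps `r_i` are adjoint to the transfers `t_i`. -/
def PDStatement : Prop :=
  ∀ (p : ℕ) [Fact p.Prime], p ≠ 2 →
    ∃ β : ∀ n : ℕ, (Additive (Gamma0 n) →+ ZMod p) → (Additive (Gamma0 n) →+ ZMod p) → ZMod p,
      (∀ n : ℕ, 0 < n →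
        (∀ x x' y, IsCusp x → IsCusp x' → IsCusp y → β n (x + x') y = β n x y + β n x' y) ∧
        (∀ x y, IsCusp x → IsCusp y → β n x y = - β n y x) ∧
        (∀ x, IsCusp x → (∀ y, IsCusp y → β n x y = 0) → x = 0)) ∧
      (∀ N q : ℕ, 0 < N → q.Prime → ¬ q ∣ N →
        ∀ (x : Additive (Gamma0 N) →+ ZMod p) (y : Additive (Gamma0 (N * q)) →+ ZMod p),
          IsCusp x → IsCusp y →
          β (N * q) (r₁ N q x) y = β N x (t₁ N q y) ∧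
          β (N * q) (r₂ N q x) y = β N x (t₂ N q y))

/-- LIFT: every cuspidal class mod `p` lifts to an integral cuspidal class. -/
def LiftStatement : Prop :=
  ∀ (n p : ℕ), 0 < n → p.Prime →
    ∀ x : Additive (Gamma0 n) →+ ZMod p, IsCusp x →
      ∃ y : Additive (Gamma0 n) →+ ℤ, IsCusp y ∧ redMod n p y = x

/-! ## IH, EIS, NE : Ihara's lemma and the non-Eisenstein property -/

/-- IH (Ihara's lemma, congruence form). -/
def IharaStatement : Prop :=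
  ∀ (N q p : ℕ), 0 < N → q.Prime → ¬ q ∣ N → p.Prime → p ≠ q →
    ∀ φ₁ φ₂ : Additive (Gamma0 N) →+ ZMod p, IsCusp φ₁ → IsCusp φ₂ →
      r₁ N q φ₁ + r₂ N q φ₂ = 0 →
      ∃ m : ℕ, 0 < m ∧ ∀ γ : Gamma0 N, (γ : SL(2, ℤ)) ∈ Gamma m →
        φ₁ (Additive.ofMul γ) = 0 ∧ φ₂ (Additive.ofMul γ) = 0

/-- EIS: classes of congruence type are Eisenstein at primes `l ≡ 1 (mod m)`. -/
def EisStatement : Prop :=
  ∀ (N m l : ℕ), 0 < N → 0 < m → l.Prime → ¬ l ∣ N → l % m = 1 % m →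
    ∀ (A : Type) [AddCommGroup A] (φ : Additive (Gamma0 N) →+ A),
      (∀ γ : Gamma0 N, (γ : SL(2, ℤ)) ∈ Gamma m → φ (Additive.ofMul γ) = 0) →
      heckeOp N l φ = (l + 1) • φ

/-- NE: an irreducible `E[p]` is not Eisenstein on any progression `1 mod m`. -/
def NEStatement : Prop :=
  ∀ (E : WeierstrassCurve ℚ) [E.IsElliptic] (W : WeierstrassCurve ℤ), W.IsIntegralModelOf E →
    ∀ p : ℕ, p.Prime → p ≠ 2 → GaloisRepIsIrreducible (K := AlgebraicClosure ℚ) ℚ E p →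
      ∀ m M : ℕ, 0 < m → 0 < M →
        ∃ l : ℕ, l.Prime ∧ W.IsGoodPrimeFor l ∧ ¬ l ∣ M ∧ l ≠ p ∧ l % m = 1 % m ∧
          ¬ (p : ℤ) ∣ W.apOfModel l - (l + 1)

/-! ## OCC : the eigensystem of `f` occurs in `C_N(ℤ)/p` -/

def OccStatement : Prop :=
  ∀ (W : WeierstrassCurve ℤ) (p N q : ℕ), p.Prime → p ≠ 2 → 0 < N → q.Prime → ¬ q ∣ N → q ≠ p →
    ∀ (f : CuspForm (Gamma0 N) 2) (𝔪 : Ideal (integralClosure ℤ ℂ)),
      f.IsNormalizedEigenform → 𝔪.IsMaximal → (p : integralClosure ℤ ℂ) ∈ 𝔪 →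
      (∀ ℓ : ℕ, ℓ.Prime → W.IsGoodPrimeFor ℓ → ¬ ℓ ∣ N → ℓ ≠ p →
        ∃ a : integralClosure ℤ ℂ, (a : ℂ) = ModularFormClass.qCoeff f ℓ ∧
          a - ((W.apOfModel ℓ : ℤ) : integralClosure ℤ ℂ) ∈ 𝔪) →
      (∃ a : integralClosure ℤ ℂ, (a : ℂ) = ModularFormClass.qCoeff f q ∧
        a ^ 2 - ((q : integralClosure ℤ ℂ) + 1) ^ 2 ∈ 𝔪) →
      ∃ (x : Additive (Gamma0 N) →+ ℤ) (μ : ℤ), IsCusp x ∧
        (∃ γ, ¬ (p : ℤ) ∣ x γ) ∧ (p : ℤ) ∣ μ ^ 2 - ((q : ℤ) + 1) ^ 2 ∧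
        (∀ γ, (p : ℤ) ∣ heckeOp N q x γ - μ * x γ) ∧
        ∀ l : ℕ, l.Prime → W.IsGoodPrimeFor l → ¬ l ∣ N * q → l ≠ p →
          ∀ γ, (p : ℤ) ∣ heckeOp N l x γ - W.apOfModel l * x γ

/-! ## CORE : Ribet's linear algebra -/

def CoreStatement : Prop :=
  ∀ (p : ℕ) [Fact p.Prime] (ι : Type) (A B : Type) [AddCommGroup A] [AddCommGroup B]
    [Module.Finite ℤ A] [Module.Free ℤ A] [Module.Finite ℤ B] [Module.Free ℤ B]
    (tA : ι → A →ₗ[ℤ] A) (tB : ι → B →ₗ[ℤ] B) (T : A →ₗ[ℤ] A)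
    (i₁ i₂ : A →ₗ[ℤ] B) (j₁ j₂ : B →ₗ[ℤ] A) (c μ : ℤ) (a : ι → ℤ)
    (βA : A → A → ZMod p) (βB : B → B → ZMod p),
    -- commutation
    (∀ l l' x, tA l (tA l' x) = tA l' (tA l x)) → (∀ l l' y, tB l (tB l' y) = tB l' (tB l y)) →
    (∀ l x, tA l (T x) = T (tA l x)) →
    (∀ l x, tB l (i₁ x) = i₁ (tA l x)) → (∀ l x, tB l (i₂ x) = i₂ (tA l x)) →
    (∀ l y, tA l (j₁ y) = j₁ (tB l y)) → (∀ l y, tA l (j₂ y) = j₂ (tB l y)) →
    -- `j ∘ i = [[c, T], [T, c]]`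
    (∀ x, j₁ (i₁ x) = c • x) → (∀ x, j₂ (i₂ x) = c • x) →
    (∀ x, j₁ (i₂ x) = T x) → (∀ x, j₂ (i₁ x) = T x) →
    -- duality mod `p`
    (∀ x x' y, βA (x + x') y = βA x y + βA x' y) → (∀ x y y', βA x (y + y') = βA x y + βA x y') →
    (∀ x x' y, βB (x + x') y = βB x y + βB x' y) → (∀ x y y', βB x (y + y') = βB x y + βB x y') →
    (∀ x, (∀ y, βA x y = 0) → ∃ z, x = (p : ℤ) • z) →
    (∀ x, (∀ y, βB x y = 0) → ∃ z, x = (p : ℤ) • z) →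
    (∀ l x y, βA (tA l x) y = βA x (tA l y)) → (∀ l x y, βB (tB l x) y = βB x (tB l y)) →
    (∀ x y, βB (i₁ x) y = βA x (j₁ y)) → (∀ x y, βB (i₂ x) y = βA x (j₂ y)) →
    -- Ihara: the kernel of `i` mod `p` is Eisenstein, `a` is not
    (∀ x₁ x₂ : A, (∃ z, i₁ x₁ + i₂ x₂ = (p : ℤ) • z) →
      ∃ (l : ι) (e : ℤ), ¬ (p : ℤ) ∣ a l - e ∧
        (∃ z, tA l x₁ - e • x₁ = (p : ℤ) • z) ∧ (∃ z, tA l x₂ - e • x₂ = (p : ℤ) • z)) →
    -- the level raising congruence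
    (∃ x : A, (¬ ∃ z, x = (p : ℤ) • z) ∧ (∃ z, T x - μ • x = (p : ℤ) • z) ∧
      ∀ l, ∃ z, tA l x - a l • x = (p : ℤ) • z) →
    (p : ℤ) ∣ μ ^ 2 - c ^ 2 →
    ∃ y : B, j₁ y = 0 ∧ j₂ y = 0 ∧ (¬ ∃ z, y = (p : ℤ) • z) ∧
      ∀ l, ∃ z, tB l y - a l • y = (p : ℤ) • z

/-! ## DS : Deligne–Serre lifting on the `q`-new lattice -/

def DSStatement : Prop :=
  ∀ (W : WeierstrassCurve ℤ) (p N q : ℕ), p.Prime → 0 < N → q.Prime → ¬ q ∣ N →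
    ∀ y : Additive (Gamma0 (N * q)) →+ ℤ, IsCusp y → t₁ N q y = 0 → t₂ N q y = 0 →
      (∃ γ, ¬ (p : ℤ) ∣ y γ) →
      (∀ l : ℕ, l.Prime → W.IsGoodPrimeFor l → ¬ l ∣ N * q → l ≠ p →
        ∀ γ, (p : ℤ) ∣ heckeOp (N * q) l y γ - W.apOfModel l * y γ) →
      ∃ (φ : Additive (Gamma0 (N * q)) →+ ℂ) (𝔪' : Ideal (integralClosure ℤ ℂ))
        (b : ℕ → integralClosure ℤ ℂ),
        φ ≠ 0 ∧ IsCusp φ ∧ t₁ N q φ = 0 ∧ t₂ N q φ = 0 ∧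
        𝔪'.IsMaximal ∧ (p : integralClosure ℤ ℂ) ∈ 𝔪' ∧
        ∀ l : ℕ, l.Prime → W.IsGoodPrimeFor l → ¬ l ∣ N * q → l ≠ p →
          heckeOp (N * q) l φ = (b l : ℂ) • φ ∧
          b l - ((W.apOfModel l : ℤ) : integralClosure ℤ ℂ) ∈ 𝔪'

/-! ## NEW : a `q`-new Betti eigenclass comes from a normalised eigenform new at `q` -/

def NewStatement : Prop :=
  ∀ (N q : ℕ), 0 < N → q.Prime → ¬ q ∣ N →
    ∀ (S : Set ℕ), (∀ l ∈ S, l.Prime ∧ ¬ l ∣ N * q) →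
    ∀ (b : ℕ → ℂ) (φ : Additive (Gamma0 (N * q)) →+ ℂ),
      φ ≠ 0 → IsCusp φ → t₁ N q φ = 0 → t₂ N q φ = 0 →
      (∀ l ∈ S, heckeOp (N * q) l φ = b l • φ) →
      ∃ g : CuspForm (Gamma0 (N * q)) 2, g.IsNormalizedEigenform ∧
        (∀ l ∈ S, ModularFormClass.qCoeff g l = b l) ∧ g.IsNewAt q

end Fermat.Agent.S41.Spec
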