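import Mathlib
import Fermat.Prelude.Def_FLTPrelim_GaloisRep
import Fermat.Prelude.Def_FLTPrelim_Modularity
import Fermat.Prelude.Def_FLTPrelim_Ramification
import Fermat.Prelude.Def_EllipticCurve_FrobeniusTrace

/-!
# Row S41, block NE ("non-Eisenstein") — frozen interface (sub-architect helper45)

`NEStatement` : if `E[p]` is irreducible (`p` odd), then for every `m ≥ 1` and every finite set `S`
there is a prime `ℓ ∉ S` of good reduction of the integral model `W`, `ℓ ≡ 1 mod m`, with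
`p ∤ a_ℓ(W) − (ℓ + 1)`.

Sub-pieces (all inputs on main):
* ABS  (done, helper701): `Fermat.Agent.S41.H701.exists_stable_line_of_eisenstein_h701`;
* DIM  (done, helper701): `Fermat.Agent.S41.H701.finrank_torsion_eq_two_h701`;
* `FrobRootStatement`        : a Frobenius at `ℓ ∤ M` raises `M`-th roots of unity to the `ℓ`-th power;
* `FrobRelTorsionStatement`  : `τ² − a_ℓ(W) τ + ℓ = 0` on `E[p](ℚ̄)` for a Frobenius `τ` at a good
  prime `ℓ ≥ 5`, `ℓ ≠ p` (from `Lib.Frob.FrobRelation` for `W` + `Lib.VC.vcPointBC`);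
* `TorsionFieldStatement`    : a finite extension `L ⊆ ℚ̄` such that the action on `E[n]` only depends
  on the restriction to `L`;
* assembly: `Lib.Cheb.frobeniusDivision` + the above ⇒ `NEStatement`.

Plan: `coord/S41.md` (origin/helper41), `coord/S41-NE.md` (origin/helper45).
No `sorry` in this file (definitions only).
-/

set_option autoImplicit false

namespace Fermat.Agent.S41.Spec

open WeierstrassCurve WeierstrassCurve.Affine WeierstrassCurve.Affine.Point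

/-- `ℚ̄`. -/
abbrev QbNE : Type := AlgebraicClosure ℚ

/-- `Gal(ℚ̄/ℚ)`. -/
abbrev GQNE : Type := QbNE ≃ₐ[ℚ] QbNE

/-- **Block NE.**  `E[p]` irreducible, `p` odd  ⇒  for all `m ≥ 1` and finite `S` there is a good prime
`ℓ ∉ S`, `ℓ ≡ 1 mod m`, with `p ∤ a_ℓ(W) − (ℓ + 1)`. -/
def NEStatement : Prop :=
  ∀ (E : WeierstrassCurve ℚ) [E.IsElliptic] (W : WeierstrassCurve ℤ), W.IsIntegralModelOf E →
    ∀ p : ℕ, p.Prime → p ≠ 2 →
      GaloisRepIsIrreducible (K := AlgebraicClosure ℚ) ℚ E p →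
      ∀ m : ℕ, 0 < m → ∀ S : Finset ℕ,
        ∃ ℓ : ℕ, ℓ.Prime ∧ ℓ ∉ S ∧ W.IsGoodPrimeFor ℓ ∧ ℓ ≡ 1 [MOD m] ∧
          ¬ (p : ℤ) ∣ W.apOfModel ℓ - ((ℓ : ℤ) + 1)

/-- **Leaf ROOT.**  A Frobenius element at a place over `ℓ ∤ M` acts on the `M`-th roots of unity of
`ℚ̄` by `t ↦ t ^ ℓ`. -/
def FrobRootStatement : Prop :=
  ∀ (M ℓ : ℕ), 0 < M → ℓ.Prime → ¬ ℓ ∣ M →
    ∀ (A : ValuationSubring QbNE) (τ : GQNE), A.LiesOverPrime ℓ → A.IsFrobeniusAt τ ℓ →
      ∀ t : QbNE, t ^ M = 1 → τ t = t ^ ℓ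

/-- **Leaf REL.**  The Frobenius relation on `E[p](ℚ̄)`, for a curve `E/ℚ` with integral model `W`, a
prime `ℓ ≥ 5`, `ℓ ≠ p`, of good reduction of `W`, and a Frobenius element `τ` over `ℓ`:
`τ²P − a_ℓ(W)·τP + ℓ·P = 0`. -/
def FrobRelTorsionStatement : Prop :=
  ∀ (E : WeierstrassCurve ℚ) [E.IsElliptic] (W : WeierstrassCurve ℤ), W.IsIntegralModelOf E →
    ∀ (p ℓ : ℕ), p.Prime → ℓ.Prime → 5 ≤ ℓ → ℓ ≠ p → W.IsGoodPrimeFor ℓ →
      ∀ (A : ValuationSubring QbNE) (τ : GQNE), A.LiesOverPrime ℓ → A.IsFrobeniusAt τ ℓ →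
        ∀ P : Submodule.torsionBy ℤ (E⁄QbNE).Point p,
          τ • τ • P - W.apOfModel ℓ • τ • P + (ℓ : ℤ) • P = 0

/-- **Leaf FLD.**  There is a finite extension `L ⊆ ℚ̄` of `ℚ` such that the action of `σ ∈ G_ℚ` on
`E[n](ℚ̄)` only depends on `σ|_L`. -/
def TorsionFieldStatement : Prop :=
  ∀ (E : WeierstrassCurve ℚ) [E.IsElliptic] (n : ℕ), 0 < n →
    ∃ L : IntermediateField ℚ QbNE, FiniteDimensional ℚ L ∧
      ∀ σ τ : GQNE, (∀ x ∈ L, σ x = τ x) →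
        ∀ P : Submodule.torsionBy ℤ (E⁄QbNE).Point n, σ • P = τ • P

/-- **Leaf RFLD.**  There is a finite extension `L ⊆ ℚ̄` of `ℚ` containing all `M`-th roots of unity. -/
def RootFieldStatement : Prop :=
  ∀ M : ℕ, 0 < M →
    ∃ L : IntermediateField ℚ QbNE, FiniteDimensional ℚ L ∧ ∀ t : QbNE, t ^ M = 1 → t ∈ L

end Fermat.Agent.S41.Spec
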