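import Fermat.Agent.S41.Spec.New
import Fermat.Agent.Lib.Newform.H923.AL

/-!
# Row S41, block NEW — frozen interface, part 2 (sub-architect helper881)

Leaves below `NewPeriodTraceStatement` (see `Spec/New.lean`, `coord/S41-NEW.md` on
origin/helper881):

* `NewPeriodSumStatement` (analytic, generic; generalizes `S29.H642.periodMap_heckeTLin`):
  if `g = ∑ x, f ∣[2] ρ x` and `ρ x * γ = k x * ρ (σ x)` then `P(g)(γ) = ∑ x, P(f)(k x)`;
* `NewPeriodTraceOneStatement` : `t₁`-side, `g₁ = f + U_q (f ∣ A)`;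
* `NewPeriodTraceTwoStatement` : `t₂`-side, `g₂ = f ∣ A + U_q f`;
  here `A` is ANY Atkin–Lehner matrix at `q` for the level `q * N` (`H923.IsAL q N A`).
-/

set_option autoImplicit false

namespace Fermat.Agent.S41.Spec

open CongruenceSubgroup ModularCurve ModularCurve.Period ModularFormClass UpperHalfPlane
open Matrix.SpecialLinearGroup
open Fermat.Agent.S29.H642
open scoped MatrixGroups ModularForm

/-- (NEW-2c) analytic leaf: the period map of a finite sum of slashes. -/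
def NewPeriodSumStatement : Prop :=
  ∀ (M' M : ℕ) [NeZero M'] [NeZero M] (f : CuspForm (Gamma0 M') 2) (g : CuspForm (Gamma0 M) 2)
    (ι : Type) [Fintype ι] (ρ : ι → GL (Fin 2) ℝ),
    (∀ x : ι, 0 < ((ρ x : GL (Fin 2) ℝ) : Matrix (Fin 2) (Fin 2) ℝ).det) →
    (⇑g : ℍ → ℂ) = ∑ x : ι, (⇑f : ℍ → ℂ) ∣[(2 : ℤ)] ρ x →
    ∀ (γ : Gamma0 M) (σ : Equiv.Perm ι) (k : ι → Gamma0 M'),
      (∀ x : ι, ρ x * mapGL ℝ (γ : SL(2, ℤ)) = mapGL ℝ ((k x : Gamma0 M') : SL(2, ℤ)) * ρ (σ x)) →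
      periodMap M g (Additive.ofMul γ) = ∑ x : ι, periodMap M' f (Additive.ofMul (k x))

/-- (NEW-2, `t₁`-side) the trace `f + U_q (f ∣ A)` is a cusp form of level `N` whose periods are
the transfer `t₁` of the periods of `f`. -/
def NewPeriodTraceOneStatement : Prop :=
  ∀ (N q : ℕ), N ≠ 0 → q.Prime → ¬ q ∣ N →
    ∀ (f : CuspForm (Gamma0 (N * q)) 2) (A : GL (Fin 2) ℝ),
      Fermat.Agent.Lib.Newform.H923.IsAL q N A →
      ∃ g₁ : CuspForm (Gamma0 N) 2,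
        (⇑g₁ : ℍ → ℂ) = ⇑f + ModularForm.heckeU 2 q ((⇑f : ℍ → ℂ) ∣[(2 : ℤ)] A) ∧
        periodMap N g₁ = t₁ N q (periodMap (N * q) f)

/-- (NEW-2, `t₂`-side) the twisted trace `f ∣ A + U_q f` is a cusp form of level `N` whose periods
are the transfer `t₂` of the periods of `f`. -/
def NewPeriodTraceTwoStatement : Prop :=
  ∀ (N q : ℕ), N ≠ 0 → q.Prime → ¬ q ∣ N →
    ∀ (f : CuspForm (Gamma0 (N * q)) 2) (A : GL (Fin 2) ℝ),
      Fermat.Agent.Lib.Newform.H923.IsAL q N A →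
      ∃ g₂ : CuspForm (Gamma0 N) 2,
        (⇑g₂ : ℍ → ℂ) = (⇑f : ℍ → ℂ) ∣[(2 : ℤ)] A + ModularForm.heckeU 2 q ⇑f ∧
        periodMap N g₂ = t₂ N q (periodMap (N * q) f)

end Fermat.Agent.S41.Spec
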